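/-
[V] (S12/S09, second landing), leaf (N) of helper12 #4754 (helper27): the zero component of an
integral model `W` at a prime `l` of multiplicative reduction (`l ∣ Δ`, `l ∤ c₄`), in the frozen
spelling `W.InZeroComponentAt A`, WITHOUT any hypothesis `l ≠ p`.

* abstract part (nodal frame of `S13/Local/NodalDefs`, unit map of `S15/E2/NodeUnit`): the total
  unit map `uh : E0 → k^×` (`1` on the kernel of reduction `K1`) is a homomorphism (`uh_add`),
  hence `E0 / K1` has no `l`-torsion when `k` has characteristic `l` (`k1_of_pow_abs`);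
* (N-a) `zeroComp` (an `AddSubgroup`), `mem_zeroComp`, `inZero_smul` (decomposition group);
* (N-b) `inZero_smul_sub`: inertia moves every point inside the zero component;
* (N-c) `k1_of_pow`: `l`-power torsion of the zero component lies in the kernel of reduction;
* (N-d) `fix_of_inZero(_of_not_dvd)`: inertia fixes the prime-to-`l` torsion of the zero component.
-/
import Fermat.Agent.S15.E2.Local.Bridge
import Fermat.Agent.S15.E2.SeamCL

set_option autoImplicit false
set_option linter.unusedSectionVars false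

namespace Fermat.Agent.S12.V3.ZeroComp

open Fermat.Agent.S13.Local Fermat.Agent.S13.Local.NodalData
open Fermat.Agent.S15.E2.NodeUnit
open IsLocalRing

section Abs

variable {K : Type*} [Field K] {G : Type*} [AddCommGroup G] {a₁ a₂ a₄ : K}
  {D : NodalData K G a₁ a₂ a₄} {A : ValuationSubring K} {α β : K}

/-- A point of `E0` outside `K1` has a unit `X`-coordinate. -/
theorem unit_of_e0_not_k1 {P : G} (hE : D.E0 A.valuation P) (hK : ¬ D.K1 A.valuation P) :
    P ≠ 0 ∧ A.valuation (D.X P) = 1 := by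
  have hP : P ≠ 0 := fun h => hK (Or.inl h)
  refine ⟨hP, le_antisymm ?_ ?_⟩
  · by_contra hcon
    rw [not_le] at hcon
    exact hK (Or.inr hcon)
  · rcases hE with h | h
    · exact absurd h hP
    · exact h

/-- **Opposite reductions.**  Two points with unit `X` whose sum lies in the kernel of reduction
have inverse unit values. -/
theorem ub_mul_of_k1 (H : Hyp A.valuation a₁ a₂ a₄) (hs : α + β = -a₁) (hp : α * β = -a₂)
    {P Q : G} (hP : P ≠ 0) (hQ : Q ≠ 0) (hXP : A.valuation (D.X P) = 1)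
    (hXQ : A.valuation (D.X Q) = 1) (hK : D.K1 A.valuation (P + Q)) :
    ub D A α β P * ub D A α β Q = 1 := by
  rcases D.gen_or_add_eq_zero hP hQ with hgen | h0
  · rcases hK with h0 | hK
    · exact absurd h0 hgen.add_ne_zero
    -- the slope is not integral
    have hXPle : A.valuation (D.X P) ≤ 1 := hXP.le
    have hXQle : A.valuation (D.X Q) ≤ 1 := hXQ.le
    have hYP : A.valuation (D.Y P) ≤ 1 := NodalRed.val_Y_le_one D A.valuation H hP hXPle
    have hYQ : A.valuation (D.Y Q) ≤ 1 := NodalRed.val_Y_le_one D A.valuation H hQ hXQle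
    have hlam : 1 < A.valuation (D.lam P Q) := by
      by_contra hcon
      rw [not_lt] at hcon
      rw [hgen.X_add] at hK
      have : A.valuation (D.lam P Q ^ 2 + a₁ * D.lam P Q - a₂ - D.X P - D.X Q) ≤ 1 := by
        refine NodalRed.val_sub_le_one (NodalRed.val_sub_le_one (NodalRed.val_sub_le_one
          (NodalRed.val_add_le_one (NodalRed.val_pow_le_one hcon 2)
            (NodalRed.val_mul_le_one H.a1 hcon)) H.a2) hXPle) hXQle
      exact absurd hK (not_lt.mpr this)
    have hl0 : A.valuation (D.lam P Q) ≠ 0 := (lt_trans zero_lt_one hlam).ne'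
    have small : ∀ z w : K, D.lam P Q * z = w → A.valuation w ≤ 1 → A.valuation z < 1 := by
      intro z w hzw hw
      by_contra hcon
      rw [not_lt] at hcon
      have h1 : 1 < A.valuation (D.lam P Q * z) := by
        rw [map_mul]
        calc (1 : _) < A.valuation (D.lam P Q) := hlam
          _ = A.valuation (D.lam P Q) * 1 := (mul_one _).symm
          _ ≤ A.valuation (D.lam P Q) * A.valuation z := mul_le_mul' le_rfl hcon
      rw [hzw] at h1
      exact absurd h1 (not_lt.mpr hw)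
    have hx : A.valuation (D.X Q - D.X P) < 1 :=
      small _ _ hgen.lam_mul_sub (NodalRed.val_sub_le_one hYQ hYP)
    have hy : A.valuation (D.Y P + D.Y Q + a₁ * D.X P) < 1 := by
      refine small _ _ (NodalRed.Gen.lam_mul_add hgen) ?_
      refine NodalRed.val_sub_le_one (NodalRed.val_add_le_one (NodalRed.val_add_le_one
        (NodalRed.val_add_le_one (NodalRed.val_add_le_one (NodalRed.val_pow_le_one hXPle 2)
          (NodalRed.val_mul_le_one hXPle hXQle)) (NodalRed.val_pow_le_one hXQle 2))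
        (NodalRed.val_mul_le_one H.a2 (NodalRed.val_add_le_one hXPle hXQle))) H.a4.le)
        (NodalRed.val_mul_le_one H.a1 hYQ)
    -- `n Q ≡ -d P`, `d Q ≡ -n P`
    have vα := v_alpha_le H hs hp
    have vβ := v_beta_le H hs hp
    have hnP := v_n_eq H hs hp hP hXP
    have hdP := v_d_eq H hs hp hP hXP
    have hnQ := v_n_eq H hs hp hQ hXQ
    have hdQ := v_d_eq H hs hp hQ hXQ
    have nP := mem_of_val_eq_one hnP
    have dP := mem_of_val_eq_one hdP
    have nQ := mem_of_val_eq_one hnQ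
    have dQ := mem_of_val_eq_one hdQ
    have e1 : n D α Q - (-(d D β P)) = (D.Y P + D.Y Q + a₁ * D.X P) - α * (D.X Q - D.X P) := by
      unfold n d
      linear_combination (-D.X P) * hs
    have e2 : d D β Q - (-(n D α P)) = (D.Y P + D.Y Q + a₁ * D.X P) - β * (D.X Q - D.X P) := by
      unfold n d
      linear_combination (-D.X P) * hs
    have r1 : red A (n D α Q) = -red A (d D β P) := by
      rw [← red_neg dP, red_eq_iff nQ (A.neg_mem _ dP), e1]
      exact NodalRed.val_sub_lt_one hy (NodalRed.val_mul_lt_one_right vα hx)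
    have r2 : red A (d D β Q) = -red A (n D α P) := by
      rw [← red_neg nP, red_eq_iff dQ (A.neg_mem _ nP), e2]
      exact NodalRed.val_sub_lt_one hy (NodalRed.val_mul_lt_one_right vβ hx)
    have z1 := red_ne_zero hnP
    have z2 := red_ne_zero hdP
    unfold ub
    rw [r1, r2]
    field_simp
  · have hQe : Q = -P := by
      rw [add_comm] at h0
      exact eq_neg_of_add_eq_zero_left h0
    rw [hQe, ub_neg H hs hp hP hXP]
    exact mul_inv_cancel₀ (ub_ne_zero H hs hp hP hXP)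

open Classical in
/-- The total unit map on `E0`: `1` on the kernel of reduction, `ū` elsewhere. -/
noncomputable def uh (D : NodalData K G a₁ a₂ a₄) (A : ValuationSubring K) (α β : K) (P : G) :
    ResidueField A :=
  if D.K1 A.valuation P then 1 else ub D A α β P

theorem uh_of_k1 {P : G} (h : D.K1 A.valuation P) : uh D A α β P = 1 := if_pos h

theorem uh_of_not_k1 {P : G} (h : ¬ D.K1 A.valuation P) : uh D A α β P = ub D A α β P :=
  if_neg h

theorem uh_zero : uh D A α β (0 : G) = 1 := uh_of_k1 (Or.inl rfl)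

/-- Outside the kernel of reduction the unit map is not `1`. -/
theorem uh_ne_one (H : Hyp A.valuation a₁ a₂ a₄) (hs : α + β = -a₁) (hp : α * β = -a₂)
    {P : G} (hE : D.E0 A.valuation P) (hK : ¬ D.K1 A.valuation P) : uh D A α β P ≠ 1 := by
  obtain ⟨hP, hX⟩ := unit_of_e0_not_k1 hE hK
  rw [uh_of_not_k1 hK]
  exact ub_ne_one H hs hp hP hX

/-- **The unit map is a homomorphism on `E0`.** -/
theorem uh_add (H : Hyp A.valuation a₁ a₂ a₄) (hs : α + β = -a₁) (hp : α * β = -a₂)
    {P Q : G} (hP : D.E0 A.valuation P) (hQ : D.E0 A.valuation Q) :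
    uh D A α β (P + Q) = uh D A α β P * uh D A α β Q := by
  have hS : D.E0 A.valuation (P + Q) := NodalRed.e0_add D A.valuation H hP hQ
  -- the mixed case: `P ∈ K1`, `Q ∉ K1`
  have mixed : ∀ {P Q : G}, D.K1 A.valuation P → D.E0 A.valuation Q → ¬ D.K1 A.valuation Q →
      D.E0 A.valuation (P + Q) → uh D A α β (P + Q) = uh D A α β P * uh D A α β Q := by
    intro P Q hPK hQE hQK hSE
    have hSK : ¬ D.K1 A.valuation (P + Q) := by
      intro hSK
      apply hQK
      have := NodalKernel.k1_sub_of_hyp D A.valuation H hSK hPK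
      rwa [add_sub_cancel_left] at this
    obtain ⟨hQ0, hXQ⟩ := unit_of_e0_not_k1 hQE hQK
    obtain ⟨hS0, hXS⟩ := unit_of_e0_not_k1 hSE hSK
    have hXnQ : A.valuation (D.X (-Q)) = 1 := by rw [D.X_neg Q hQ0]; exact hXQ
    have hsum : D.K1 A.valuation ((P + Q) + (-Q)) := by
      rw [add_neg_cancel_right]; exact hPK
    have key := ub_mul_of_k1 H hs hp hS0 (neg_ne_zero.mpr hQ0) hXS hXnQ hsum
    rw [ub_neg H hs hp hQ0 hXQ] at key
    rw [uh_of_k1 hPK, uh_of_not_k1 hQK, uh_of_not_k1 hSK, one_mul]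
    have hu0 := ub_ne_zero H hs hp hQ0 hXQ
    field_simp at key
    exact key
  by_cases hPK : D.K1 A.valuation P
  · by_cases hQK : D.K1 A.valuation Q
    · rw [uh_of_k1 hPK, uh_of_k1 hQK,
        uh_of_k1 (NodalKernel.k1_add_of_hyp D A.valuation H hPK hQK), one_mul]
    · exact mixed hPK hQ hQK hS
  · by_cases hQK : D.K1 A.valuation Q
    · rw [add_comm P Q, mul_comm]
      exact mixed hQK hP hPK (by rw [add_comm]; exact hS)
    · obtain ⟨hP0, hXP⟩ := unit_of_e0_not_k1 hP hPK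
      obtain ⟨hQ0, hXQ⟩ := unit_of_e0_not_k1 hQ hQK
      rw [uh_of_not_k1 hPK, uh_of_not_k1 hQK]
      by_cases hSK : D.K1 A.valuation (P + Q)
      · rw [uh_of_k1 hSK]
        exact (ub_mul_of_k1 H hs hp hP0 hQ0 hXP hXQ hSK).symm
      · obtain ⟨hS0, hXS⟩ := unit_of_e0_not_k1 hS hSK
        rw [uh_of_not_k1 hSK]
        rcases D.gen_or_add_eq_zero hP0 hQ0 with hgen | h0
        · exact ub_add H hs hp hgen hXP hXQ hXS
        · exact absurd h0 hS0

theorem uh_nsmul (H : Hyp A.valuation a₁ a₂ a₄) (hs : α + β = -a₁) (hp : α * β = -a₂)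
    {P : G} (hP : D.E0 A.valuation P) (k : ℕ) :
    uh D A α β (k • P) = uh D A α β P ^ k := by
  induction k with
  | zero => rw [zero_nsmul, pow_zero]; exact uh_zero
  | succ k ih =>
    rw [succ_nsmul, uh_add H hs hp (NodalRed.e0_nsmul D A.valuation H hP k) hP, ih, pow_succ]

/-- **No `l`-power torsion outside the kernel of reduction** (`l` the residue characteristic). -/
theorem k1_of_pow_abs (H : Hyp A.valuation a₁ a₂ a₄) (hs : α + β = -a₁) (hp : α * β = -a₂)
    {l : ℕ} [Fact l.Prime] [CharP (ResidueField A) l] {P : G} (hE : D.E0 A.valuation P)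
    {n : ℕ} (hn : l ^ n • P = 0) : D.K1 A.valuation P := by
  by_contra hK
  have h1 := uh_nsmul (α := α) (β := β) H hs hp hE (l ^ n)
  rw [hn, uh_zero] at h1
  have h2 : (uh D A α β P - 1) ^ l ^ n = 0 := by
    rw [sub_pow_char_pow, one_pow, ← h1, sub_self]
  exact uh_ne_one H hs hp hE hK (sub_eq_zero.mp (pow_eq_zero_iff
    (pow_ne_zero n (Fact.out : l.Prime).ne_zero) |>.mp h2))

end Abs

/-! ### The nodal frame of an integral model at a multiplicative prime -/

section Frame

open WeierstrassCurve WeierstrassCurve.Affine WeierstrassCurve.Affine.Point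
open Fermat.Agent.S13.Local.NodalInst
open Fermat.Agent.S13.CU.VarChange
open Fermat.Agent.S05.FreyLeg
open Fermat.Agent.S58.Mult.Unipotent
open Fermat.Agent.S15.E2.Local.Bridge

local notation "Qbar" => AlgebraicClosure ℚ
local notation "GQ" => (AlgebraicClosure ℚ ≃ₐ[ℚ] AlgebraicClosure ℚ)

variable (W : WeierstrassCurve ℤ)

/-- **The node is rational**: `c₄ r ≡ 18 b₆ - b₂ b₄` modulo the maximal ideal. -/
theorem node_congr {A : ValuationSubring Qbar} {r t : Qbar} (hr : r ∈ A)
    (h3 : ((W.a₃ : ℤ) : Qbar) + r * ((W.a₁ : ℤ) : Qbar) + 2 * t = 0)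
    (h6 : ((W.a₆ : ℤ) : Qbar) + r * ((W.a₄ : ℤ) : Qbar) + r ^ 2 * ((W.a₂ : ℤ) : Qbar) + r ^ 3
      - t * ((W.a₃ : ℤ) : Qbar) - t ^ 2 - r * t * ((W.a₁ : ℤ) : Qbar) = 0)
    (h4 : A.valuation (((W.a₄ : ℤ) : Qbar) + 2 * r * ((W.a₂ : ℤ) : Qbar)
      - t * ((W.a₁ : ℤ) : Qbar) + 3 * r ^ 2) < 1) :
    A.valuation (((W.c₄ : ℤ) : Qbar) * r - (((18 * W.b₆ - W.b₂ * W.b₄ : ℤ)) : Qbar)) < 1 := by
  have key : ((W.c₄ : ℤ) : Qbar) * r - (((18 * W.b₆ - W.b₂ * W.b₄ : ℤ)) : Qbar)
      = (12 * r + ((W.b₂ : ℤ) : Qbar)) * (2 * (((W.a₄ : ℤ) : Qbar) + 2 * r * ((W.a₂ : ℤ) : Qbar)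
        - t * ((W.a₁ : ℤ) : Qbar) + 3 * r ^ 2)) := by
    simp only [WeierstrassCurve.c₄, WeierstrassCurve.b₂, WeierstrassCurve.b₄, WeierstrassCurve.b₆]
    push_cast
    linear_combination (-72 : Qbar) * h6
      + (-18 * (((W.a₃ : ℤ) : Qbar) + r * ((W.a₁ : ℤ) : Qbar) + 2 * t)
          + (12 * r + (((W.a₁ : ℤ) : Qbar) ^ 2 + 4 * ((W.a₂ : ℤ) : Qbar)))
            * ((W.a₁ : ℤ) : Qbar)) * h3
  have h12 : (12 : Qbar) ∈ A := by
    have h := natCast_mem A 12
    rwa [Nat.cast_ofNat] at h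
  have h2 : A.valuation (2 : Qbar) ≤ 1 := v_two_le'
  rw [key]
  refine NodalRed.val_mul_lt_one_right ?_ (NodalRed.val_mul_lt_one_right h2 h4)
  exact (A.valuation_le_one_iff _).mpr
    (A.add_mem _ _ (A.mul_mem _ _ h12 hr) (intCast_mem A _))

/-- **The frame**: translation of the node to the origin, with the bridge relations and the
rationality congruence of the node. -/
theorem exists_frame' (hΔ0 : W.Δ ≠ 0) {l : ℕ} (hl : l.Prime) (hlΔ : (l : ℤ) ∣ W.Δ)
    (hlc : ¬ (l : ℤ) ∣ W.c₄) (A : ValuationSubring Qbar) (hA : A.LiesOverPrime l) :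
    ∃ r t : Qbar, r ∈ A ∧ t ∈ A ∧
      A.valuation (((W.c₄ : ℤ) : Qbar) * r - (((18 * W.b₆ - W.b₂ * W.b₄ : ℤ)) : Qbar)) < 1 ∧
      TransRel W r t ∧ IsNodalForm (V (EQ W) r t) ∧
        NodalData.Hyp A.valuation (V (EQ W) r t).a₁ (V (EQ W) r t).a₂ (V (EQ W) r t).a₄ := by
  obtain ⟨r, t, hr, ht, h3, h6, h4, ha1, ha2, hV, H⟩ :=
    Fermat.Agent.S15.E2.SeamCL.exists_frame W hl hlΔ hlc hΔ0 A hA
  refine ⟨r, t, hr, ht, node_congr W hr h3 h6 h4, ⟨?_, ?_, ?_, ?_⟩, hV, H⟩
  · rw [ha1, a₁_eq]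
  · rw [ha2, a₂_eq]
  · rw [a₃_eq, a₁_eq]; exact h3
  · simp [V, variableChange_a₄]

variable {W}

/-- The bridge, in the form used below. -/
theorem inZero_iff {A : ValuationSubring Qbar} {r t : Qbar} (hr : r ∈ A) (ht : t ∈ A)
    (hT : TransRel W r t) (hV : IsNodalForm (V (EQ W) r t))
    (H : NodalData.Hyp A.valuation (V (EQ W) r t).a₁ (V (EQ W) r t).a₂ (V (EQ W) r t).a₄)
    (T : ((EQ W)⁄Qbar).Point) :
    W.InZeroComponentAt A T ↔
      (nodalData hV).E0 A.valuation ((phi (W' := EQ W) r t).symm T) := by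
  have h := inZero_phi_iff hr ht hT hV H ((phi (W' := EQ W) r t).symm T)
  rwa [AddEquiv.apply_symm_apply] at h

/-- The decomposition group moves the node inside its residue class. -/
theorem v_map_sub_lt {A : ValuationSubring Qbar} {l : ℕ} (hl : l.Prime)
    (hA : A.LiesOverPrime l) (hlc : ¬ (l : ℤ) ∣ W.c₄) {r : Qbar}
    (hc : A.valuation (((W.c₄ : ℤ) : Qbar) * r
      - (((18 * W.b₆ - W.b₂ * W.b₄ : ℤ)) : Qbar)) < 1)
    {σ : GQ} (hσ : σ ∈ A.decompositionSubgroup ℚ) : A.valuation (σ r - r) < 1 := by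
  have hc4 : A.valuation ((W.c₄ : ℤ) : Qbar) = 1 :=
    Fermat.Agent.S05.LocalVal.intCast_valuation_eq_one hl hA hlc
  have h1 := Fermat.Agent.S05.LocalVal.valuation_map_eq_of_mem_decomposition hσ
    (((W.c₄ : ℤ) : Qbar) * r - (((18 * W.b₆ - W.b₂ * W.b₄ : ℤ)) : Qbar))
  rw [map_sub, map_mul, map_intCast, map_intCast] at h1
  have e : ((W.c₄ : ℤ) : Qbar) * (σ r - r)
      = (((W.c₄ : ℤ) : Qbar) * σ r - (((18 * W.b₆ - W.b₂ * W.b₄ : ℤ)) : Qbar))
        - (((W.c₄ : ℤ) : Qbar) * r - (((18 * W.b₆ - W.b₂ * W.b₄ : ℤ)) : Qbar)) := by ring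
  have h2 : A.valuation (((W.c₄ : ℤ) : Qbar) * (σ r - r)) < 1 := by
    rw [e]
    exact NodalRed.val_sub_lt_one (by rw [h1]; exact hc) hc
  rwa [map_mul, hc4, one_mul] at h2

end Frame

/-! ### The zero component at a multiplicative prime -/

section Main

open WeierstrassCurve WeierstrassCurve.Affine WeierstrassCurve.Affine.Point
open Fermat.Agent.S13.Local.NodalInst
open Fermat.Agent.S13.CU.VarChange
open Fermat.Agent.S05.FreyLeg
open Fermat.Agent.S58.Mult.Unipotent
open Fermat.Agent.S58.Mult.TwistAct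
open Fermat.Agent.S15.E2.Local.Bridge

local notation "Qbar" => AlgebraicClosure ℚ
local notation "GQ" => (AlgebraicClosure ℚ ≃ₐ[ℚ] AlgebraicClosure ℚ)

variable (W : WeierstrassCurve ℤ) (hΔ0 : W.Δ ≠ 0) {l : ℕ} (hl : l.Prime) (hlΔ : (l : ℤ) ∣ W.Δ)
  (hlc : ¬ (l : ℤ) ∣ W.c₄) (A : ValuationSubring Qbar) (hA : A.LiesOverPrime l)

/-- **(N-a)** The zero component at a multiplicative prime, as a subgroup. -/
noncomputable def zeroComp (W : WeierstrassCurve ℤ) (hΔ0 : W.Δ ≠ 0) {l : ℕ} (hl : l.Prime)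
    (hlΔ : (l : ℤ) ∣ W.Δ) (hlc : ¬ (l : ℤ) ∣ W.c₄) (A : ValuationSubring Qbar)
    (hA : A.LiesOverPrime l) : AddSubgroup ((W.map (Int.castRingHom ℚ))⁄Qbar).Point where
  carrier := {T | W.InZeroComponentAt A T}
  zero_mem' := Or.inl rfl
  add_mem' := by
    intro a b ha hb
    obtain ⟨r, t, hr, ht, -, hT, hV, H⟩ := exists_frame' W hΔ0 hl hlΔ hlc A hA
    have ha' : W.InZeroComponentAt A a := ha
    have hb' : W.InZeroComponentAt A b := hb
    show W.InZeroComponentAt A (a + b)
    rw [inZero_iff hr ht hT hV H] at ha' hb' ⊢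
    rw [map_add]
    exact NodalRed.e0_add _ _ H ha' hb'
  neg_mem' := by
    intro a ha
    obtain ⟨r, t, hr, ht, -, hT, hV, H⟩ := exists_frame' W hΔ0 hl hlΔ hlc A hA
    have ha' : W.InZeroComponentAt A a := ha
    show W.InZeroComponentAt A (-a)
    rw [inZero_iff hr ht hT hV H] at ha' ⊢
    rw [map_neg]
    exact NodalData.E0.neg _ _ ha'

theorem mem_zeroComp {T : ((W.map (Int.castRingHom ℚ))⁄Qbar).Point} :
    T ∈ zeroComp W hΔ0 hl hlΔ hlc A hA ↔ W.InZeroComponentAt A T := Iff.rfl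

/-- The transported Galois action, in the frame. -/
theorem symm_smul (r t : Qbar) (σ : GQ) (T : ((EQ W)⁄Qbar).Point) :
    (phi (W' := EQ W) r t).symm (σ • T)
      = sAct (W' := EQ W) r t σ ((phi (W' := EQ W) r t).symm T) := by
  apply (phi (W' := EQ W) r t).injective
  rw [AddEquiv.apply_symm_apply, phi_sAct, AddEquiv.apply_symm_apply]

/-- The kernel of reduction lies in the zero component (no hypothesis on `l`). -/
theorem inZero_of_k1 (W : WeierstrassCurve ℤ) (A : ValuationSubring Qbar)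
    {T : ((W.map (Int.castRingHom ℚ))⁄Qbar).Point}
    (h : T = 0 ∨ 1 < A.valuation (ptX ((W.map (Int.castRingHom ℚ))⁄Qbar) T)) :
    W.InZeroComponentAt A T := by
  rcases h with h | h
  · exact Or.inl h
  · cases T with
    | zero => exact Or.inl rfl
    | some x y hxy =>
      refine Or.inr ⟨x, y, hxy, rfl, Or.inl ?_⟩
      intro hx
      have h1 : A.valuation x ≤ 1 := (A.valuation_le_one_iff _).mpr hx
      exact absurd h (not_lt.mpr h1)

include hΔ0 hl hlΔ hlc hA

/-- **(N-a)** The zero component is stable under the decomposition group. -/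
theorem inZero_smul {σ : GQ} (hσ : σ ∈ A.decompositionSubgroup ℚ)
    {T : ((W.map (Int.castRingHom ℚ))⁄Qbar).Point} (hT0 : W.InZeroComponentAt A T) :
    W.InZeroComponentAt A (σ • T) := by
  obtain ⟨r, t, hr, ht, hc, hT, hV, H⟩ := exists_frame' W hΔ0 hl hlΔ hlc A hA
  rw [inZero_iff hr ht hT hV H] at hT0 ⊢
  rw [symm_smul]
  set T' := (phi (W' := EQ W) r t).symm T with hT'
  by_cases h0 : T' = 0
  · rw [h0, _root_.map_zero]; exact Or.inl rfl
  right
  rcases hT0 with h | h
  · exact absurd h h0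
  have hX : (nodalData hV).X (sAct (W' := EQ W) r t σ T')
      = σ ((nodalData hV).X T') + (σ r - r) := ptX_sAct r t σ h0
  have hv := Fermat.Agent.S05.LocalVal.valuation_map_eq_of_mem_decomposition hσ
    ((nodalData hV).X T')
  have hsmall := v_map_sub_lt hl hA hlc hc hσ
  rw [hX, Valuation.map_add_eq_of_lt_left _ (by rw [hv]; exact lt_of_lt_of_le hsmall h), hv]
  exact h

/-- **(N-b)** Inertia moves every point inside the zero component. -/
theorem inZero_smul_sub {σ : GQ} (hσ : σ ∈ A.inertiaSubgroupIn ℚ)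
    (T : ((W.map (Int.castRingHom ℚ))⁄Qbar).Point) : W.InZeroComponentAt A (σ • T - T) := by
  obtain ⟨r, t, hr, ht, -, hT, hV, H⟩ := exists_frame' W hΔ0 hl hlΔ hlc A hA
  rw [inZero_iff hr ht hT hV H, map_sub, symm_smul]
  exact (twAct r t hV hσ hr).sub_mem_E0 H _

/-- **(N-c)** A point of `l`-power order of the zero component lies in the kernel of reduction
(`l` the residue characteristic). -/
theorem k1_of_pow {T : ((W.map (Int.castRingHom ℚ))⁄Qbar).Point}
    (hT0 : W.InZeroComponentAt A T) {n : ℕ} (hn : l ^ n • T = 0) :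
    T = 0 ∨ 1 < A.valuation (ptX ((W.map (Int.castRingHom ℚ))⁄Qbar) T) := by
  have : Fact l.Prime := ⟨hl⟩
  have : CharP (ResidueField A) l := Fermat.Agent.S15.E2.SeamCL.charP_residue hl hA
  obtain ⟨r, t, hr, ht, -, hT, hV, H⟩ := exists_frame' W hΔ0 hl hlΔ hlc A hA
  rw [inZero_iff hr ht hT hV H] at hT0
  set T' := (phi (W' := EQ W) r t).symm T with hT'
  have hphi : phi (W' := EQ W) r t T' = T := AddEquiv.apply_symm_apply _ _
  have hn' : l ^ n • T' = 0 := by rw [hT', ← map_nsmul, hn, _root_.map_zero]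
  -- the tangent slopes
  obtain ⟨s, hs2⟩ := IsAlgClosed.exists_pow_nat_eq
    ((V (EQ W) r t).a₁ ^ 2 + 4 * (V (EQ W) r t).a₂) (n := 2) two_pos
  set α : Qbar := (-(V (EQ W) r t).a₁ + s) / 2 with hα
  set β : Qbar := (-(V (EQ W) r t).a₁ - s) / 2 with hβ
  have hs : α + β = -(V (EQ W) r t).a₁ := by rw [hα, hβ]; ring
  have hpr : α * β = -(V (EQ W) r t).a₂ := by
    rw [hα, hβ]; linear_combination (-1 / 4 : Qbar) * hs2
  rcases k1_of_pow_abs (D := nodalData hV) (α := α) (β := β) H hs hpr hT0 hn' with h | h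
  · left
    rw [← hphi, h, _root_.map_zero]
  · by_cases h0 : T' = 0
    · left
      rw [← hphi, h0, _root_.map_zero]
    right
    have h' : 1 < A.valuation (ptX (V (EQ W) r t) T') := h
    have hX := ptX_phi (W' := EQ W) r t h0
    rw [hphi] at hX
    rw [hX]
    have hrv : A.valuation r ≤ 1 := (A.valuation_le_one_iff _).mpr hr
    rw [Valuation.map_add_eq_of_lt_left _ (lt_of_le_of_lt hrv h')]
    exact h'

/-- **(N-d)** Inertia fixes the torsion of order prime to `l` of the zero component. -/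
theorem fix_of_inZero_of_not_dvd {m : ℕ} (hm : ¬ l ∣ m) {σ : GQ}
    (hσ : σ ∈ A.inertiaSubgroupIn ℚ) {T : ((W.map (Int.castRingHom ℚ))⁄Qbar).Point}
    (hT0 : W.InZeroComponentAt A T) (hmT : m • T = 0) : σ • T = T := by
  obtain ⟨r, t, hr, ht, -, hT, hV, H⟩ := exists_frame' W hΔ0 hl hlΔ hlc A hA
  rw [inZero_iff hr ht hT hV H] at hT0
  have hmv : A.valuation ((m : ℕ) : Qbar) = 1 := by
    have h : ¬ (l : ℤ) ∣ (m : ℤ) := fun hd => hm (Int.natCast_dvd_natCast.mp hd)
    have := Fermat.Agent.S05.LocalVal.intCast_valuation_eq_one (L := Qbar) hl hA h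
    simpa using this
  have hm' : m • (phi (W' := EQ W) r t).symm T = 0 := by rw [← map_nsmul, hmT, _root_.map_zero]
  have key := (twAct r t hV hσ hr).fix_of_E0 H hmv hm' hT0
  rw [← symm_smul] at key
  exact (phi (W' := EQ W) r t).symm.injective key

/-- **(N-d)**, prime form. -/
theorem fix_of_inZero {p : ℕ} (hp : p.Prime) (hpl : p ≠ l) {σ : GQ}
    (hσ : σ ∈ A.inertiaSubgroupIn ℚ) {T : ((W.map (Int.castRingHom ℚ))⁄Qbar).Point}
    (hT0 : W.InZeroComponentAt A T) (hpT : p • T = 0) : σ • T = T :=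
  fix_of_inZero_of_not_dvd W hΔ0 hl hlΔ hlc A hA
    (fun h => hpl ((Nat.prime_dvd_prime_iff_eq hl hp).mp h).symm) hσ hT0 hpT

end Main

end Fermat.Agent.S12.V3.ZeroComp
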