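import Fermat.Agent.S12.V3.FreyK1

/-!
# Block [V], leaf (beta-2): the `p`-adic part of a level of the tower

`P : FreyPackage`, `N ⊆ E[p]` the cofixed line, `E'` an abelian group with an action of
`GQ = Gal(ℚ̄/ℚ)` (the points of a level) and `θ : E(ℚ̄) →+ E'` the isogeny from the Frey curve.

`IsLevel P N n θ` : `θ` is equivariant, surjective, and for every place `A` over `p` and every package
`FreyK1.PlaceData P N A F g₀ σ₀` the kernel of `θ` lies in `F` and is killed by `p ^ n`.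

* `IsLevel.base`      : the quotient by `N` is a level with `n = 1`;
* `IsLevel.locFree`   : **(loc)** at the places over `p` for a marked point of order `p`;
* `IsLevel.exists_line` : the local line `Z` at a place over `p` (`hloc` of `Tower/Adm`);
* `IsLevel.comp`      : the quotient by a cyclotomic line killed by `p` is a level with `n + 1`.
-/

set_option autoImplicit false
set_option linter.unusedSectionVars false

noncomputable section

open WeierstrassCurve WeierstrassCurve.Affine WeierstrassCurve.Affine.Point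

namespace Fermat.Agent.S12.V3.PLevel

open Fermat.Agent.S13.Global Fermat.Agent.S12.V3.PadicAbs Fermat.Agent.S12.V3.FreyK1 ExtCitation

local notation "Qbar" => AlgebraicClosure ℚ
local notation "GQ" => (AlgebraicClosure ℚ ≃ₐ[ℚ] AlgebraicClosure ℚ)

variable {P : FreyPackage} [Fact P.p.Prime] {N : Submodule (ZMod P.p) (Tors P.freyCurve P.p)}
  {E' E'' : Type*} [AddCommGroup E'] [AddCommGroup E''] [DistribMulAction GQ E']
  [DistribMulAction GQ E'']

/-- The `p`-adic part of a level of the tower. -/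
structure IsLevel (P : FreyPackage) [Fact P.p.Prime]
    (N : Submodule (ZMod P.p) (Tors P.freyCurve P.p)) (n : ℕ)
    (θ : (P.freyCurve⁄Qbar).Point →+ E') : Prop where
  equiv : ∀ (σ : GQ) (x : (P.freyCurve⁄Qbar).Point), θ (σ • x) = σ • θ x
  surj : Function.Surjective θ
  ker : ∀ (A : ValuationSubring Qbar), A.LiesOverPrime P.p →
    ∀ (F : AddSubgroup (P.freyCurve⁄Qbar).Point) (g₀ : (P.freyCurve⁄Qbar).Point) (σ₀ : GQ),
      PlaceData P N A F g₀ σ₀ → Ker P.p F θ n

variable {n : ℕ} {θ : (P.freyCurve⁄Qbar).Point →+ E'}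

/-- **Base**: a surjective equivariant map whose kernel is the line `N`. -/
theorem IsLevel.base (hθ : ∀ (σ : GQ) (x : (P.freyCurve⁄Qbar).Point), θ (σ • x) = σ • θ x)
    (hsurj : Function.Surjective θ)
    (hker : ∀ x : (P.freyCurve⁄Qbar).Point, θ x = 0 →
      ∃ y : Tors P.freyCurve P.p, y ∈ N ∧ (y : (P.freyCurve⁄Qbar).Point) = x) :
    IsLevel P N 1 θ where
  equiv := hθ
  surj := hsurj
  ker := fun A _ F g₀ σ₀ hD => Ker.base fun x hx => by
    obtain ⟨y, hyN, rfl⟩ := hker x hx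
    exact ⟨hD.line y hyN, Fermat.Agent.S05.FreyLegInst.nsmul_eq_zero_of_mem_torsionBy P y⟩

/-- **(loc) at the places over `p`**. -/
theorem IsLevel.locFree (h : IsLevel P N n θ) {A : ValuationSubring Qbar}
    (hA : A.LiesOverPrime P.p)
    (hex : ∃ (F : AddSubgroup (P.freyCurve⁄Qbar).Point) (g₀ : (P.freyCurve⁄Qbar).Point)
      (σ₀ : GQ), PlaceData P N A F g₀ σ₀)
    {Q' : E'} (hQ' : P.p • Q' = 0) (hfix : ∀ σ : GQ, σ • Q' = Q') {σ : GQ}
    (hσ : σ ∈ A.inertiaSubgroupIn ℚ) (x' : E')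
    (hx' : σ • x' - x' ∈ AddSubgroup.zmultiples Q') : σ • x' = x' := by
  obtain ⟨F, g₀, σ₀, hD⟩ := hex
  exact PadicAbs.locFree P.pp hD.datum h.equiv h.surj (h.ker A hA F g₀ σ₀ hD) hQ' (hfix σ₀) hσ
    x' hx'

/-- **The local line at a place over `p`**: a non-trivial subgroup of `E'[p]`, stable under the
decomposition group, which does not contain the marked point. -/
theorem IsLevel.exists_line (h : IsLevel P N n θ) {A : ValuationSubring Qbar}
    (hA : A.LiesOverPrime P.p)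
    (hex : ∃ (F : AddSubgroup (P.freyCurve⁄Qbar).Point) (g₀ : (P.freyCurve⁄Qbar).Point)
      (σ₀ : GQ), PlaceData P N A F g₀ σ₀)
    {Q' : E'} (hQ0 : Q' ≠ 0) (hQ' : P.p • Q' = 0) (hfix : ∀ σ : GQ, σ • Q' = Q') :
    ∃ Z : AddSubgroup E', (∀ z ∈ Z, P.p • z = 0) ∧ Q' ∉ Z ∧ (∃ z ∈ Z, z ≠ 0) ∧
      ∀ σ ∈ A.decompositionSubgroup ℚ, ∀ z ∈ Z, σ • z ∈ Z := by
  obtain ⟨F, g₀, σ₀, hD⟩ := hex
  have hK := h.ker A hA F g₀ σ₀ hD
  let Z : AddSubgroup E' :=
    { carrier := {z | P.p • z = 0 ∧ ∃ f ∈ F, θ f = z}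
      zero_mem' := ⟨smul_zero _, 0, F.zero_mem, map_zero θ⟩
      add_mem' := by
        rintro a b ⟨ha, fa, hfa, rfl⟩ ⟨hb, fb, hfb, rfl⟩
        exact ⟨by rw [smul_add, ha, hb, add_zero], fa + fb, F.add_mem hfa hfb, map_add θ fa fb⟩
      neg_mem' := by
        rintro a ⟨ha, fa, hfa, rfl⟩
        exact ⟨by rw [smul_neg, ha, _root_.neg_zero], -fa, F.neg_mem hfa, map_neg θ fa⟩ }
  refine ⟨Z, fun z hz => hz.1, ?_, ?_, ?_⟩
  · rintro ⟨-, f, hf, hfQ⟩
    exact not_mem_image P.pp hD.datum h.equiv hK hQ0 hQ' (hfix σ₀) hf hfQ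
  · obtain ⟨f, hf, hf1, hf0⟩ := hD.deep n
    obtain ⟨f', hf', hne, hp⟩ :=
      exists_tors_image (θ := θ) hf ⟨n + 1, hf1⟩ (hK.apply_ne_zero hf0)
    exact ⟨θ f', ⟨hp, f', hf', rfl⟩, hne⟩
  · rintro σ hσ z ⟨hz, f, hf, rfl⟩
    refine ⟨?_, σ • f, hD.stable σ hσ f hf, h.equiv σ f⟩
    rw [← smul_nsmul_comm, hz, smul_zero]

/-- **Step**: the quotient of a level by a line killed by `p` on which the Galois group acts
through the cyclotomic character is again a level. -/
theorem IsLevel.comp (h : IsLevel P N n θ) (φ : E' →+ E'')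
    (hφ : ∀ (σ : GQ) (x : E'), φ (σ • x) = σ • φ x) (hsurj : Function.Surjective φ)
    (hM : ∀ m : E', φ m = 0 → P.p • m = 0 ∧ ∀ σ : GQ, σ • m = cycloExp P.p σ • m) :
    IsLevel P N (n + 1) (φ.comp θ) where
  equiv := fun σ x => by
    rw [AddMonoidHom.comp_apply, h.equiv, hφ, AddMonoidHom.comp_apply]
  surj := hsurj.comp h.surj
  ker := fun A hA F g₀ σ₀ hD => by
    refine (h.ker A hA F g₀ σ₀ hD).comp φ fun m hm => ?_
    obtain ⟨hpm, hcyc⟩ := hM m hm
    refine ⟨hpm, ?_⟩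
    have hc : ¬ (P.p : ℤ) ∣ ((cycloExp P.p σ₀ : ℕ) : ℤ) - 1 := by
      intro hdvd
      apply hD.cyc_ne
      rw [coe_cycloChar]
      have h0 := (ZMod.intCast_zmod_eq_zero_iff_dvd _ P.p).mpr hdvd
      rw [Int.cast_sub, Int.cast_natCast, Int.cast_one, sub_eq_zero] at h0
      exact h0
    refine mem_image_of_eigen P.pp hD.datum h.equiv h.surj hpm hc ?_
    rw [hcyc σ₀, natCast_zsmul]

end Fermat.Agent.S12.V3.PLevel
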