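import Mathlib
import Fermat.Prelude.Def_FLTPrelim_FreyPackage
import Fermat.Agent.S13.Local.FreyTwoArith

/-!
# Block [V]: the integral model of the Frey curve

`P.freyCurveInt.map (Int.castRingHom ℚ) = P.freyCurve`: the two integer divisions in the
definition of `FreyPackage.freyCurveInt` are exact.
-/

set_option autoImplicit false

namespace Fermat.Agent.S12.V3.FreyInt

open Fermat.Agent.S13.Local.FreyTwoArith

variable (P : FreyPackage)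

/-- `16 ∣ a ^ p b ^ p`. -/
theorem sixteen_dvd_a4_num : (16 : ℤ) ∣ -(P.a ^ P.p) * (P.b ^ P.p) := by
  obtain ⟨k, hk⟩ := two_dvd_b P
  obtain ⟨m, hm⟩ := Nat.exists_eq_add_of_le (le_trans (by norm_num : 4 ≤ 5) P.hp5)
  rw [hk, hm]
  exact ⟨-(P.a ^ (4 + m)) * (2 ^ m * k ^ (4 + m)), by ring⟩

/-- The integral model of the Frey curve becomes the Frey curve over `ℚ`. -/
theorem freyCurveInt_map : P.freyCurveInt.map (Int.castRingHom ℚ) = P.freyCurve := by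
  have h4 : ((4 : ℤ) : ℚ) ≠ 0 := by norm_num
  have h16 : ((16 : ℤ) : ℚ) ≠ 0 := by norm_num
  ext
  · show ((1 : ℤ) : ℚ) = 1
    exact Int.cast_one
  · show (((P.b ^ P.p - 1 - P.a ^ P.p) / 4 : ℤ) : ℚ)
      = ((P.b : ℚ) ^ P.p - 1 - (P.a : ℚ) ^ P.p) / 4
    rw [Int.cast_div (four_dvd_a2_num P) h4]
    push_cast
    ring
  · show ((0 : ℤ) : ℚ) = 0
    exact Int.cast_zero
  · show ((-(P.a ^ P.p) * (P.b ^ P.p) / 16 : ℤ) : ℚ)
      = -((P.a : ℚ) ^ P.p) * ((P.b : ℚ) ^ P.p) / 16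
    rw [Int.cast_div (sixteen_dvd_a4_num P) h16]
    push_cast
    ring
  · show ((0 : ℤ) : ℚ) = 0
    exact Int.cast_zero

/-! ### Discriminant and `c₄` of the integral model -/

theorem four_mul_a₂ : 4 * P.freyCurveInt.a₂ = P.b ^ P.p - 1 - P.a ^ P.p :=
  Int.mul_ediv_cancel' (four_dvd_a2_num P)

theorem sixteen_mul_a₄ : 16 * P.freyCurveInt.a₄ = -(P.a ^ P.p) * (P.b ^ P.p) :=
  Int.mul_ediv_cancel' (sixteen_dvd_a4_num P)

theorem a₁_eq : P.freyCurveInt.a₁ = 1 := rfl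
theorem a₃_eq : P.freyCurveInt.a₃ = 0 := rfl
theorem a₆_eq : P.freyCurveInt.a₆ = 0 := rfl

/-- `2⁸ Δ = (a b c) ^ (2 p)`. -/
theorem Δ_mul : 256 * P.freyCurveInt.Δ = (P.a ^ P.p * P.b ^ P.p * P.c ^ P.p) ^ 2 := by
  have h2 := four_mul_a₂ P
  have h4 := sixteen_mul_a₄ P
  have hAB : P.a ^ P.p * P.b ^ P.p = -16 * P.freyCurveInt.a₄ := by linarith
  have hBA : P.b ^ P.p - P.a ^ P.p = 4 * P.freyCurveInt.a₂ + 1 := by linarith
  have hΔ : P.freyCurveInt.Δ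
      = P.freyCurveInt.a₄ ^ 2 * ((4 * P.freyCurveInt.a₂ + 1) ^ 2 - 64 * P.freyCurveInt.a₄) := by
    simp only [WeierstrassCurve.Δ, WeierstrassCurve.b₂, WeierstrassCurve.b₄,
      WeierstrassCurve.b₆, WeierstrassCurve.b₈, a₁_eq, a₃_eq, a₆_eq]
    ring
  calc 256 * P.freyCurveInt.Δ
      = (-16 * P.freyCurveInt.a₄) ^ 2
          * ((4 * P.freyCurveInt.a₂ + 1) ^ 2 + 4 * (-16 * P.freyCurveInt.a₄)) := by
        rw [hΔ]; ring
    _ = (P.a ^ P.p * P.b ^ P.p) ^ 2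
          * ((P.b ^ P.p - P.a ^ P.p) ^ 2 + 4 * (P.a ^ P.p * P.b ^ P.p)) := by rw [hAB, hBA]
    _ = (P.a ^ P.p * P.b ^ P.p * P.c ^ P.p) ^ 2 := by rw [← P.hFLT]; ring

/-- `c₄ = a ^ (2 p) + a ^ p b ^ p + b ^ (2 p)`. -/
theorem c₄_eq : P.freyCurveInt.c₄
    = (P.a ^ P.p) ^ 2 + P.a ^ P.p * P.b ^ P.p + (P.b ^ P.p) ^ 2 := by
  have h2 := four_mul_a₂ P
  have h4 := sixteen_mul_a₄ P
  have hAB : P.a ^ P.p * P.b ^ P.p = -16 * P.freyCurveInt.a₄ := by linarith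
  have hBA : P.b ^ P.p - P.a ^ P.p = 4 * P.freyCurveInt.a₂ + 1 := by linarith
  have hc : P.freyCurveInt.c₄
      = (4 * P.freyCurveInt.a₂ + 1) ^ 2 + 3 * (-16 * P.freyCurveInt.a₄) := by
    simp only [WeierstrassCurve.c₄, WeierstrassCurve.b₂, WeierstrassCurve.b₄, a₁_eq, a₃_eq]
    ring
  rw [hc, ← hAB, ← hBA]
  ring

theorem Δ_ne_zero : P.freyCurveInt.Δ ≠ 0 := by
  intro h
  have h1 := Δ_mul P
  rw [h, mul_zero] at h1
  have h2 : P.a ^ P.p * P.b ^ P.p * P.c ^ P.p ≠ 0 :=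
    mul_ne_zero (mul_ne_zero (pow_ne_zero _ P.ha0) (pow_ne_zero _ P.hb0)) (pow_ne_zero _ P.hc0)
  exact h2 (pow_eq_zero_iff (two_ne_zero)|>.mp h1.symm)

/-- An odd prime dividing `a b c` divides the discriminant. -/
theorem dvd_Δ {q : ℕ} (hq : q.Prime) (hq2 : q ≠ 2) (h : (q : ℤ) ∣ P.a * P.b * P.c) :
    (q : ℤ) ∣ P.freyCurveInt.Δ := by
  have hqi : Prime (q : ℤ) := Nat.prime_iff_prime_int.mp hq
  have h1 : (q : ℤ) ∣ 256 * P.freyCurveInt.Δ := by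
    rw [Δ_mul]
    have : P.a ^ P.p * P.b ^ P.p * P.c ^ P.p = (P.a * P.b * P.c) ^ P.p := by ring
    rw [this]
    exact dvd_pow (dvd_pow h P.hp0) two_ne_zero
  rcases hqi.dvd_or_dvd h1 with h2 | h2
  · exfalso
    have h3 : (q : ℤ) ∣ 2 ^ 8 := by norm_num; exact h2
    have h4 : (q : ℤ) ∣ 2 := hqi.dvd_of_dvd_pow h3
    have h5 : q ∣ 2 := by exact_mod_cast h4
    exact hq2 ((Nat.prime_dvd_prime_iff_eq hq Nat.prime_two).mp h5)
  · exact h2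

/-- A prime dividing `a b c` does not divide `c₄`. -/
theorem not_dvd_c₄ {q : ℕ} (hq : q.Prime) (h : (q : ℤ) ∣ P.a * P.b * P.c) :
    ¬ (q : ℤ) ∣ P.freyCurveInt.c₄ := by
  have hqi : Prime (q : ℤ) := Nat.prime_iff_prime_int.mp hq
  have hcop : ∀ x y : ℤ, gcd x y = 1 → (q : ℤ) ∣ x → ¬ (q : ℤ) ∣ y := by
    intro x y hxy hx hy
    have := dvd_gcd hx hy
    rw [hxy] at this
    exact hqi.not_dvd_one this
  intro hc
  rw [c₄_eq] at hc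
  have hpow : ∀ x : ℤ, (q : ℤ) ∣ x ^ P.p → (q : ℤ) ∣ x := fun x hx => hqi.dvd_of_dvd_pow hx
  rcases hqi.dvd_or_dvd h with h1 | h1
  · rcases hqi.dvd_or_dvd h1 with ha | hb
    · -- `q ∣ a`
      have h2 : (q : ℤ) ∣ (P.b ^ P.p) ^ 2 := by
        have h3 : (q : ℤ) ∣ (P.a ^ P.p) ^ 2 + P.a ^ P.p * P.b ^ P.p :=
          dvd_add (dvd_pow (dvd_pow ha P.hp0) two_ne_zero)
            (dvd_mul_of_dvd_left (dvd_pow ha P.hp0) _)
        exact (dvd_add_right h3).mp hc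
      exact hcop _ _ P.hgcdab ha (hpow _ (hqi.dvd_of_dvd_pow h2))
    · -- `q ∣ b`
      have h2 : (q : ℤ) ∣ (P.a ^ P.p) ^ 2 := by
        have h3 : (q : ℤ) ∣ P.a ^ P.p * P.b ^ P.p + (P.b ^ P.p) ^ 2 :=
          dvd_add (dvd_mul_of_dvd_right (dvd_pow hb P.hp0) _)
            (dvd_pow (dvd_pow hb P.hp0) two_ne_zero)
        rw [add_assoc] at hc
        exact (dvd_add_left h3).mp hc
      have hgba : gcd P.b P.a = 1 := by rw [gcd_comm]; exact P.hgcdab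
      exact hcop _ _ hgba hb (hpow _ (hqi.dvd_of_dvd_pow h2))
  · -- `q ∣ c`
    have hcp : (q : ℤ) ∣ P.c ^ P.p := dvd_pow h1 P.hp0
    have h2 : (q : ℤ) ∣ (P.a ^ P.p) ^ 2 := by
      have e : (P.a ^ P.p) ^ 2 + P.a ^ P.p * P.b ^ P.p + (P.b ^ P.p) ^ 2
          = (P.a ^ P.p) ^ 2 + P.b ^ P.p * P.c ^ P.p := by rw [← P.hFLT]; ring
      rw [e] at hc
      exact (dvd_add_left (dvd_mul_of_dvd_right hcp _)).mp hc
    have hgca : gcd P.c P.a = 1 := by rw [gcd_comm]; exact P.hgcdac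
    exact hcop _ _ hgca h1 (hpow _ (hqi.dvd_of_dvd_pow h2))

end Fermat.Agent.S12.V3.FreyInt
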