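import Fermat.Agent.S12.V3.FreyE0
import Fermat.Agent.S12.V3.FreyInt
import Fermat.Agent.S12.V3.ZeroComp

/-!
# Block [V]: the package `PlaceData` at EVERY place over `p` of the Frey curve

* `p ∤ abc` (good reduction at `p`): `FreyK1.exists_placeData_of_good`, with `F` the kernel of
  reduction;
* `p ∣ abc` (multiplicative reduction at `p`): `FreyE0.exists_placeData_of_zeroComp` fed with the
  zero component `ZeroComp.zeroComp` of the integral model `P.freyCurveInt` at `l = p`, transported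
  along `FreyInt.freyCurveInt_map`.

Result: `exists_placeData`, hypothesis-free in the reduction type.
-/

set_option autoImplicit false
set_option linter.unusedSectionVars false

noncomputable section

open WeierstrassCurve WeierstrassCurve.Affine WeierstrassCurve.Affine.Point

namespace Fermat.Agent.S12.V3.PlaceAll

open Fermat.Agent.S13.Global Fermat.Agent.S12.V3.PadicAbs Fermat.Agent.S12.V3.FreyK1
  Fermat.Agent.S13.Local.NodalInst ExtCitation

local notation "Qbar" => AlgebraicClosure ℚ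
local notation "GQ" => (AlgebraicClosure ℚ ≃ₐ[ℚ] AlgebraicClosure ℚ)

variable (P : FreyPackage)

/-- Transport of the abstract zero-component criterion along an equality of rational curves. -/
theorem exists_placeData_of_eq [Fact P.p.Prime]
    (N : Submodule (ZMod P.p) (Tors P.freyCurve P.p)) (hN : IsGaloisStable ℚ N)
    (hbot : N ≠ ⊥) (htop : N ≠ ⊤) (A : ValuationSubring Qbar) (hA : A.LiesOverPrime P.p)
    (hcof : A.inertiaSubgroupIn ℚ ≤ cofixer N)
    (E₀ : WeierstrassCurve ℚ) (h : E₀ = P.freyCurve)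
    (Z : AddSubgroup (E₀⁄Qbar).Point)
    (hZK : ∀ T : (E₀⁄Qbar).Point,
      (T = 0 ∨ 1 < A.valuation (ptX (E₀⁄Qbar) T)) → T ∈ Z)
    (hZstab : ∀ σ ∈ A.decompositionSubgroup ℚ, ∀ T ∈ Z, σ • T ∈ Z)
    (hZmove : ∀ σ ∈ A.inertiaSubgroupIn ℚ, ∀ T : (E₀⁄Qbar).Point, σ • T - T ∈ Z)
    (hZtors : ∀ T ∈ Z, P.p • T = 0 → T = 0 ∨ 1 < A.valuation (ptX (E₀⁄Qbar) T)) :
    ∃ (F : AddSubgroup (P.freyCurve⁄Qbar).Point) (g₀ : (P.freyCurve⁄Qbar).Point) (σ₀ : GQ),
      PlaceData P N A F g₀ σ₀ := by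
  subst h
  obtain ⟨g₀, σ₀, H⟩ := Fermat.Agent.S12.V3.FreyE0.exists_placeData_of_zeroComp P N hN hbot htop
    A hA hcof Z hZK hZstab hZmove hZtors
  exact ⟨Z, g₀, σ₀, H⟩

/-- **The package at every place over `p`**, whatever the reduction type of the Frey curve. -/
theorem exists_placeData [Fact P.p.Prime]
    (N : Submodule (ZMod P.p) (Tors P.freyCurve P.p)) (hN : IsGaloisStable ℚ N)
    (hbot : N ≠ ⊥) (htop : N ≠ ⊤) (A : ValuationSubring Qbar) (hA : A.LiesOverPrime P.p)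
    (hcof : A.inertiaSubgroupIn ℚ ≤ cofixer N) :
    ∃ (F : AddSubgroup (P.freyCurve⁄Qbar).Point) (g₀ : (P.freyCurve⁄Qbar).Point) (σ₀ : GQ),
      PlaceData P N A F g₀ σ₀ := by
  have hp : P.p.Prime := Fact.out
  by_cases hdvd : (P.p : ℤ) ∣ P.a * P.b * P.c
  · -- multiplicative reduction at `p`
    have hp2 : P.p ≠ 2 := by
      intro h2
      have := P.hp5
      omega
    have hΔ0 := Fermat.Agent.S12.V3.FreyInt.Δ_ne_zero P
    have hlΔ := Fermat.Agent.S12.V3.FreyInt.dvd_Δ P hp hp2 hdvd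
    have hlc := Fermat.Agent.S12.V3.FreyInt.not_dvd_c₄ P hp hdvd
    refine exists_placeData_of_eq P N hN hbot htop A hA hcof
      (P.freyCurveInt.map (Int.castRingHom ℚ)) (Fermat.Agent.S12.V3.FreyInt.freyCurveInt_map P)
      (Fermat.Agent.S12.V3.ZeroComp.zeroComp P.freyCurveInt hΔ0 hp hlΔ hlc A hA) ?_ ?_ ?_ ?_
    · intro T hT
      exact Fermat.Agent.S12.V3.ZeroComp.inZero_of_k1 P.freyCurveInt A hT
    · intro σ hσ T hT
      exact Fermat.Agent.S12.V3.ZeroComp.inZero_smul P.freyCurveInt hΔ0 hp hlΔ hlc A hA hσ hT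
    · intro σ hσ T
      exact Fermat.Agent.S12.V3.ZeroComp.inZero_smul_sub P.freyCurveInt hΔ0 hp hlΔ hlc A hA hσ T
    · intro T hT hpT
      exact Fermat.Agent.S12.V3.ZeroComp.k1_of_pow P.freyCurveInt hΔ0 hp hlΔ hlc A hA hT (n := 1)
        (by rw [pow_one]; exact hpT)
  · -- good reduction at `p`
    have ha : ¬ (P.p : ℤ) ∣ P.a := fun h => hdvd (dvd_mul_of_dvd_left (dvd_mul_of_dvd_left h _) _)
    have hb : ¬ (P.p : ℤ) ∣ P.b := fun h => hdvd (dvd_mul_of_dvd_left (dvd_mul_of_dvd_right h _) _)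
    have hc : ¬ (P.p : ℤ) ∣ P.c := fun h => hdvd (dvd_mul_of_dvd_right h _)
    exact exists_placeData_of_good P ha hb hc N hN hbot htop A hA hcof

end Fermat.Agent.S12.V3.PlaceAll
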