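import Fermat.Agent.S12.V3.FreyK1
import Fermat.Agent.S13.Local.NodalInst

/-!
# Block [V], leaf (beta-3): the places over `p` in the second case (`p ∣ abc`)

When the Frey curve has multiplicative reduction at `p`, the subgroup `F` of `FreyK1.PlaceData` is
the group `E⁰` of points with non-singular reduction.  This file produces the package from an
abstract subgroup `Z` of the points of the Frey curve which

* contains the kernel of reduction (`x ∉ A`),
* is stable under the decomposition group,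
* receives `σ T - T` for every point `T` and every `σ` in the inertia group,
* has its `p`-torsion inside the kernel of reduction.

(For `Z := E⁰` these are the statements (N-a), (N-b), (N-c) on `W.InZeroComponentAt`.)
-/

set_option autoImplicit false
set_option linter.unusedSectionVars false

noncomputable section

open WeierstrassCurve WeierstrassCurve.Affine WeierstrassCurve.Affine.Point

namespace Fermat.Agent.S12.V3.FreyE0

open Fermat.Agent.S05 Fermat.Agent.S05.LegData Fermat.Agent.S05.FreyLeg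
  Fermat.Agent.S13.Global Fermat.Agent.S13.Local.FreyP Fermat.Agent.S12.V3.PadicAbs
  Fermat.Agent.S12.V3.FreyK1 Fermat.Agent.S13.Local.NodalInst ExtCitation

local notation "Qbar" => AlgebraicClosure ℚ
local notation "GQ" => (AlgebraicClosure ℚ ≃ₐ[ℚ] AlgebraicClosure ℚ)

variable {P : FreyPackage}

section core

variable {A : ValuationSubring Qbar} {e₁ e₂ d : Qbar}
  {D : LegData Qbar (P.freyCurve⁄Qbar).Point e₁ e₂}

/-- The package at a place over `p` for a subgroup `Z` containing the kernel of reduction whose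
`p`-torsion lies in the kernel of reduction (generic Legendre frame). -/
theorem exists_placeData_of_core [Fact P.p.Prime] (L : LegP P A D d) (hA : A.LiesOverPrime P.p)
    (hcard : ∀ m : ℕ, Nat.card (Tors P.freyCurve (P.p ^ m)) = (P.p ^ m) ^ 2)
    (hVS : ∀ m : ℕ, ∀ S : Finset (P.freyCurve⁄Qbar).Point,
      (∀ T, T ∈ S ↔ P.p ^ m • T = 0 ∧ T ≠ 0) →
      (∏ T ∈ S, (D.X T - e₂)) ^ 2 =
        (e₂ * (e₂ - e₁)) ^ ((P.p ^ m) ^ 2 - 1) / ((P.p ^ m : ℕ) : Qbar) ^ 4)
    (N : Submodule (ZMod P.p) (Tors P.freyCurve P.p)) (hN : IsGaloisStable ℚ N)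
    (hbot : N ≠ ⊥) (htop : N ≠ ⊤) (hcof : A.inertiaSubgroupIn ℚ ≤ cofixer N)
    (Z : AddSubgroup (P.freyCurve⁄Qbar).Point)
    (hZK : ∀ T : (P.freyCurve⁄Qbar).Point, D.K1 A T → T ∈ Z)
    (hZstab : ∀ σ ∈ A.decompositionSubgroup ℚ, ∀ T ∈ Z, σ • T ∈ Z)
    (hZmove : ∀ σ ∈ A.inertiaSubgroupIn ℚ, ∀ T : (P.freyCurve⁄Qbar).Point, σ • T - T ∈ Z)
    (hZtors : ∀ T ∈ Z, P.p • T = 0 → D.K1 A T) :
    ∃ (g₀ : (P.freyCurve⁄Qbar).Point) (σ₀ : GQ), PlaceData P N A Z g₀ σ₀ := by
  have hcard1 : Nat.card (Tors P.freyCurve P.p) = P.p ^ 2 := by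
    have := hcard 1
    rwa [pow_one] at this
  have hVS1 : ∀ S : Finset (P.freyCurve⁄Qbar).Point, (∀ T, T ∈ S ↔ P.p • T = 0 ∧ T ≠ 0) →
      (∏ T ∈ S, (D.X T - e₂)) ^ 2 =
        (e₂ * (e₂ - e₁)) ^ (P.p ^ 2 - 1) / ((P.p : ℕ) : Qbar) ^ 4 := by
    intro S hS
    have := hVS 1 S (by simpa only [pow_one] using hS)
    simpa only [pow_one] using this
  obtain ⟨g₀, σ₀, hK₀, hpg₀, hcyc, hσ₀, hne, hχ⟩ :=
    exists_gen_sigma L hA hcard1 hVS1 N hN hbot htop
  refine ⟨g₀, σ₀, ⟨hZmove, ⟨hZK _ hK₀, hpg₀, fun f hf hpf => hcyc f (hZtors f hf hpf) hpf⟩,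
    hσ₀, hne⟩, ?_, hZstab, ?_, ?_⟩
  · convert hχ
  · intro m
    obtain ⟨f, hf, h1, h0⟩ := exists_exact_order L hA hcard hVS m
    exact ⟨f, hZK f hf, h1, h0⟩
  · intro x hx
    exact hZK _ (mem_K1sub_of_mem L hA hcard1 hVS1 N hN hbot htop hcof hx)

end core

/-! ### The bridge to the affine `x`-coordinate -/

section bridge

variable {A : ValuationSubring Qbar}

/-- `1 < v (4 x - r₀) ↔ 1 < v x` for `v 4 = 1`, `v r₀ ≤ 1`. -/
theorem one_lt_legX_iff {W : WeierstrassCurve Qbar} {r0 : Qbar}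
    (h4 : A.valuation (4 : Qbar) = 1) (hr0 : A.valuation r0 ≤ 1) (T : W.toAffine.Point) :
    1 < A.valuation (legX W r0 T) ↔ 1 < A.valuation (ptX W T) := by
  rcases T with _ | ⟨x, y, h⟩
  · change 1 < A.valuation (0 : Qbar) ↔ 1 < A.valuation (0 : Qbar)
    exact Iff.rfl
  · rw [legX_some, ptX_some]
    constructor
    · intro h1
      by_contra hx
      rw [not_lt] at hx
      have : A.valuation (4 * x - r0) ≤ 1 := by
        refine le_trans (A.valuation.map_sub _ _) (max_le ?_ hr0)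
        rw [map_mul, h4, one_mul]
        exact hx
      exact absurd h1 (not_lt.mpr this)
    · intro h1
      have h2 : A.valuation r0 < A.valuation (4 * x) := by
        rw [map_mul, h4, one_mul]
        exact lt_of_le_of_lt hr0 h1
      rw [A.valuation.map_sub_eq_of_lt_left h2, map_mul, h4, one_mul]
      exact h1

theorem val_four_eq_one (h2 : A.valuation (2 : Qbar) = 1) : A.valuation (4 : Qbar) = 1 := by
  have : (4 : Qbar) = 2 * 2 := by norm_num
  rw [this, map_mul, h2, one_mul]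

end bridge

/-! ### The three legs -/

section legs

open Fermat.Agent.S13.Local.FreyPArith Fermat.Agent.S05.FreyInst Fermat.Agent.S05.FreyLegInst

variable (P)

/-- **The package at a place over `p` from an abstract `E⁰`** (any reduction type at `p`). -/
theorem exists_placeData_of_zeroComp [Fact P.p.Prime]
    (N : Submodule (ZMod P.p) (Tors P.freyCurve P.p)) (hN : IsGaloisStable ℚ N)
    (hbot : N ≠ ⊥) (htop : N ≠ ⊤) (A : ValuationSubring Qbar) (hA : A.LiesOverPrime P.p)
    (hcof : A.inertiaSubgroupIn ℚ ≤ cofixer N)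
    (Z : AddSubgroup (P.freyCurve⁄Qbar).Point)
    (hZK : ∀ T : (P.freyCurve⁄Qbar).Point,
      (T = 0 ∨ 1 < A.valuation (ptX (P.freyCurve⁄Qbar) T)) → T ∈ Z)
    (hZstab : ∀ σ ∈ A.decompositionSubgroup ℚ, ∀ T ∈ Z, σ • T ∈ Z)
    (hZmove : ∀ σ ∈ A.inertiaSubgroupIn ℚ, ∀ T : (P.freyCurve⁄Qbar).Point, σ • T - T ∈ Z)
    (hZtors : ∀ T ∈ Z, P.p • T = 0 → T = 0 ∨ 1 < A.valuation (ptX (P.freyCurve⁄Qbar) T)) :
    ∃ (g₀ : (P.freyCurve⁄Qbar).Point) (σ₀ : GQ), PlaceData P N A Z g₀ σ₀ := by
  rcases frey_three_cases_p P with h | h | h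
  · have L := legP_A P hA h.1 h.2
    have h4 := val_four_eq_one L.h2
    have hbr : ∀ T : (P.freyCurve⁄Qbar).Point, (legA P Qbar).K1 A T ↔
        (T = 0 ∨ 1 < A.valuation (ptX (P.freyCurve⁄Qbar) T)) := fun T =>
      or_congr Iff.rfl (one_lt_legX_iff h4 (by rw [_root_.map_zero]; exact zero_le_one) T)
    exact exists_placeData_of_core L hA (natCard_frey_pow P)
      (fun j S hS => Fermat.Agent.S13.CU.Transport.valSum_leg (isLegA P Qbar)
        (FreyLegInst.two_ne_zero' Qbar) (natCast_pow_ne_zero P j) (natCard_frey_pow P j)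
        (valSum_frey_pow P j) S hS)
      N hN hbot htop hcof Z (fun T hT => hZK T ((hbr T).mp hT)) hZstab hZmove
      (fun T hT hpT => (hbr T).mpr (hZtors T hT hpT))
  · have L := legP_B P hA h.1 h.2
    have h4 := val_four_eq_one L.h2
    have hbr : ∀ T : (P.freyCurve⁄Qbar).Point, (legB P Qbar).K1 A T ↔
        (T = 0 ∨ 1 < A.valuation (ptX (P.freyCurve⁄Qbar) T)) := fun T =>
      or_congr Iff.rfl (one_lt_legX_iff h4 (by rw [_root_.map_zero]; exact zero_le_one) T)
    exact exists_placeData_of_core L hA (natCard_frey_pow P)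
      (fun j S hS => Fermat.Agent.S13.CU.Transport.valSum_leg (isLegB P Qbar)
        (FreyLegInst.two_ne_zero' Qbar) (natCast_pow_ne_zero P j) (natCard_frey_pow P j)
        (valSum_frey_pow P j) S hS)
      N hN hbot htop hcof Z (fun T hT => hZK T ((hbr T).mp hT)) hZstab hZmove
      (fun T hT hpT => (hbr T).mpr (hZtors T hT hpT))
  · have L := legP_C P hA h.1 h.2
    have h4 := val_four_eq_one L.h2
    have hr0 : A.valuation (cA P Qbar) ≤ 1 := by
      have := L.he2
      rw [Valuation.map_neg] at this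
      exact le_of_eq this
    have hbr : ∀ T : (P.freyCurve⁄Qbar).Point, (legC P Qbar).K1 A T ↔
        (T = 0 ∨ 1 < A.valuation (ptX (P.freyCurve⁄Qbar) T)) := fun T =>
      or_congr Iff.rfl (one_lt_legX_iff h4 hr0 T)
    exact exists_placeData_of_core L hA (natCard_frey_pow P)
      (fun j S hS => Fermat.Agent.S13.CU.Transport.valSum_leg (isLegC P Qbar)
        (FreyLegInst.two_ne_zero' Qbar) (natCast_pow_ne_zero P j) (natCard_frey_pow P j)
        (valSum_frey_pow P j) S hS)
      N hN hbot htop hcof Z (fun T hT => hZK T ((hbr T).mp hT)) hZstab hZmove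
      (fun T hT hpT => (hbr T).mpr (hZtors T hT hpT))

end legs

end Fermat.Agent.S12.V3.FreyE0
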