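import Mathlib

/-!
# Block [V], leaf (beta-0): the local analysis at `p` along the tower, abstractly

Pure group theory.  `Γ` is a group (the absolute Galois group), `I ≤ Γ` (the inertia group of a
place over `p`), `G` an abelian group with `Γ`-action (the points of the Frey curve) and
`F ≤ G` a subgroup (the kernel of reduction, resp. the points with non-singular reduction) with

* `move`   : `σ x - x ∈ F` for `σ ∈ I` and every `x`;
* `cyc`    : the `p`-torsion of `F` is cyclic, generated by `g₀`;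
* `σ₀`     : an element of `I` which moves `g₀`.

`θ : G →+ G'` is an equivariant surjection (the isogeny to a level of the tower) whose kernel lies
in `F` and is killed by a power of `p` (`Ker`).  Then

* `eq_zero_of_mem_zmultiples` : `θ F ∩ ⟨Q'⟩ = 0` for every point `Q'` of order `p` fixed by `σ₀`;
* `locFree`  : an element of `I` moving `x'` by a multiple of `Q'` fixes `x'`;
* `exists_tors_image`, `mem_image_of_eigen`, `Ker.comp` : the data for the next level.
-/

set_option autoImplicit false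

namespace Fermat.Agent.S12.V3.PadicAbs

/-! ### Cyclic `p`-primary part -/

section Cyclic

variable {G : Type*} [AddCommGroup G] {p : ℕ} {F : AddSubgroup G} {g₀ : G}

/-- In a group of exponent `p`, a non-zero multiple of `g` generates `g`. -/
theorem mem_zmultiples_of_ne_zero (hp : p.Prime) {g h : G} (hg : p • g = 0)
    (hh : h ∈ AddSubgroup.zmultiples g) (hh0 : h ≠ 0) : g ∈ AddSubgroup.zmultiples h := by
  obtain ⟨c, rfl⟩ := AddSubgroup.mem_zmultiples_iff.mp hh
  have hpc : ¬ (p : ℤ) ∣ c := by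
    rintro ⟨d, rfl⟩
    apply hh0
    rw [mul_comm, mul_smul, natCast_zsmul, hg, smul_zero]
  have hcop : IsCoprime c (p : ℤ) :=
    ((Nat.prime_iff_prime_int.mp hp).irreducible.coprime_iff_not_dvd.mpr hpc).symm
  obtain ⟨a, b, hab⟩ := hcop
  rw [AddSubgroup.mem_zmultiples_iff]
  refine ⟨a, ?_⟩
  have h1 : g = (a * c + b * (p : ℤ)) • g := by rw [hab, one_smul]
  rw [add_smul, mul_smul, mul_smul, natCast_zsmul, hg, smul_zero, add_zero] at h1
  exact h1.symm

/-- The `p`-torsion of `F` is cyclic, generated by `g₀`. -/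
def CycTors (p : ℕ) (F : AddSubgroup G) (g₀ : G) : Prop :=
  g₀ ∈ F ∧ p • g₀ = 0 ∧ ∀ f ∈ F, p • f = 0 → f ∈ AddSubgroup.zmultiples g₀

/-- An element of exact order `p ^ (j + 1)` of `F` generates `F[p ^ (j + 1)]`. -/
theorem mem_zmultiples_of_exact (hp : p.Prime) (hF : CycTors p F g₀) :
    ∀ j : ℕ, ∀ x ∈ F, ∀ y ∈ F, p ^ (j + 1) • x = 0 → p ^ j • x ≠ 0 → p ^ (j + 1) • y = 0 →
      y ∈ AddSubgroup.zmultiples x := by
  obtain ⟨hg₀F, hg₀, hcyc⟩ := hF
  intro j
  induction j with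
  | zero =>
    intro x hx y hy hx1 hx0 hy1
    rw [zero_add, pow_one] at hx1 hy1
    rw [pow_zero, one_smul] at hx0
    have h1 : g₀ ∈ AddSubgroup.zmultiples x :=
      mem_zmultiples_of_ne_zero hp hg₀ (hcyc x hx hx1) hx0
    exact (AddSubgroup.zmultiples_le_of_mem h1) (hcyc y hy hy1)
  | succ j ih =>
    intro x hx y hy hx1 hx0 hy1
    have hpx : p ^ (j + 1) • (p • x) = 0 := by rw [← mul_smul, ← pow_succ]; exact hx1
    have hpx0 : p ^ j • (p • x) ≠ 0 := by rw [← mul_smul, ← pow_succ]; exact hx0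
    have hpy : p ^ (j + 1) • (p • y) = 0 := by rw [← mul_smul, ← pow_succ]; exact hy1
    have h1 := ih (p • x) (F.nsmul_mem hx p) (p • y) (F.nsmul_mem hy p) hpx hpx0 hpy
    obtain ⟨c, hc⟩ := AddSubgroup.mem_zmultiples_iff.mp h1
    -- `w = y - c x` is killed by `p`
    have hw : y - c • x ∈ F := F.sub_mem hy (F.zsmul_mem hx c)
    have hpw : p • (y - c • x) = 0 := by
      rw [smul_sub, smul_comm p c x, hc, sub_self]
    have hwg : y - c • x ∈ AddSubgroup.zmultiples g₀ := hcyc _ hw hpw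
    -- `g₀` is a multiple of `x`
    have hh : p ^ (j + 1) • x ∈ AddSubgroup.zmultiples g₀ :=
      hcyc _ (F.nsmul_mem hx _) (by rw [← mul_smul, ← pow_succ']; exact hx1)
    have hg₀x : g₀ ∈ AddSubgroup.zmultiples x :=
      (AddSubgroup.zmultiples_le_of_mem
        (AddSubgroup.nsmul_mem _ (AddSubgroup.mem_zmultiples x) _))
        (mem_zmultiples_of_ne_zero hp hg₀ hh hx0)
    have hwx : y - c • x ∈ AddSubgroup.zmultiples x :=
      (AddSubgroup.zmultiples_le_of_mem hg₀x) hwg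
    have : y = (y - c • x) + c • x := by abel
    rw [this]
    exact AddSubgroup.add_mem _ hwx
      (AddSubgroup.zsmul_mem _ (AddSubgroup.mem_zmultiples x) c)

/-- A `p`-power torsion element has an exact order. -/
theorem exists_exact {x : G} (hx0 : x ≠ 0) (hxt : ∃ n : ℕ, p ^ n • x = 0) :
    ∃ j : ℕ, p ^ (j + 1) • x = 0 ∧ p ^ j • x ≠ 0 := by
  classical
  have hpos : Nat.find hxt ≠ 0 := by
    intro h0
    have := Nat.find_spec hxt
    rw [h0, pow_zero, one_smul] at this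
    exact hx0 this
  obtain ⟨j, hj⟩ := Nat.exists_eq_succ_of_ne_zero hpos
  refine ⟨j, ?_, ?_⟩
  · have := Nat.find_spec hxt
    rwa [hj] at this
  · exact Nat.find_min hxt (by rw [hj]; exact Nat.lt_succ_self j)

/-- Two `p`-power torsion elements of `F` are comparable. -/
theorem mem_zmultiples_or (hp : p.Prime) (hF : CycTors p F g₀) {x y : G} (hx : x ∈ F)
    (hy : y ∈ F) (hxt : ∃ n : ℕ, p ^ n • x = 0) (hyt : ∃ n : ℕ, p ^ n • y = 0) :
    x ∈ AddSubgroup.zmultiples y ∨ y ∈ AddSubgroup.zmultiples x := by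
  by_cases hx0 : x = 0
  · left; rw [hx0]; exact AddSubgroup.zero_mem _
  by_cases hy0 : y = 0
  · right; rw [hy0]; exact AddSubgroup.zero_mem _
  obtain ⟨a, ha1, ha0⟩ := exists_exact hx0 hxt
  obtain ⟨b, hb1, hb0⟩ := exists_exact hy0 hyt
  rcases le_total a b with hab | hab
  · left
    refine mem_zmultiples_of_exact hp hF b y hy x hx hb1 hb0 ?_
    obtain ⟨d, rfl⟩ := Nat.exists_eq_add_of_le hab
    rw [show a + d + 1 = d + (a + 1) by ring, pow_add, mul_smul, ha1, smul_zero]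
  · right
    refine mem_zmultiples_of_exact hp hF a x hx y hy ha1 ha0 ?_
    obtain ⟨d, rfl⟩ := Nat.exists_eq_add_of_le hab
    rw [show b + d + 1 = d + (b + 1) by ring, pow_add, mul_smul, hb1, smul_zero]

end Cyclic

/-! ### The local datum and the tower invariant -/

section Action

variable {Γ : Type*} [Group Γ] {G G' G'' : Type*} [AddCommGroup G] [AddCommGroup G']
  [AddCommGroup G''] [DistribMulAction Γ G] [DistribMulAction Γ G'] [DistribMulAction Γ G'']

/-- The action commutes with integer multiples. -/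
theorem smul_zsmul_comm (σ : Γ) (k : ℤ) (x : G) : σ • (k • x) = k • (σ • x) :=
  map_zsmul (DistribSMul.toAddMonoidHom G σ) k x

/-- The action commutes with natural multiples. -/
theorem smul_nsmul_comm (σ : Γ) (k : ℕ) (x : G) : σ • (k • x) = k • (σ • x) :=
  map_nsmul (DistribSMul.toAddMonoidHom G σ) k x

/-- The local datum at a place over `p` on the source of the tower. -/
structure Datum (p : ℕ) (I : Subgroup Γ) (F : AddSubgroup G) (g₀ : G) (σ₀ : Γ) : Prop where
  move : ∀ σ ∈ I, ∀ x : G, σ • x - x ∈ F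
  cyc : CycTors p F g₀
  σ₀_mem : σ₀ ∈ I
  σ₀_ne : σ₀ • g₀ ≠ g₀

/-- The invariant of a level: the kernel of `θ` lies in `F` and is killed by `p ^ n`. -/
structure Ker (p : ℕ) (F : AddSubgroup G) (θ : G →+ G') (n : ℕ) : Prop where
  mem : ∀ x, θ x = 0 → x ∈ F
  tors : ∀ x, θ x = 0 → p ^ n • x = 0

variable {p : ℕ} {I : Subgroup Γ} {F : AddSubgroup G} {g₀ : G} {σ₀ : Γ} {θ : G →+ G'} {n : ℕ}

/-- **(P3)**: the image of `F` meets the line of a `σ₀`-fixed point of order `p` trivially. -/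
theorem eq_zero_of_mem_zmultiples (hp : p.Prime) (hD : Datum p I F g₀ σ₀)
    (hθ : ∀ (σ : Γ) (x : G), θ (σ • x) = σ • θ x) (hK : Ker p F θ n) {Q' : G'}
    (hQ' : p • Q' = 0) (hfix : σ₀ • Q' = Q') {f : G} (hf : f ∈ F)
    (hfQ : θ f ∈ AddSubgroup.zmultiples Q') : θ f = 0 := by
  by_contra hne
  obtain ⟨hg₀F, hg₀, hcyc⟩ := hD.cyc
  obtain ⟨c, hc⟩ := AddSubgroup.mem_zmultiples_iff.mp hfQ
  have hpθ : p • θ f = 0 := by rw [← hc, smul_comm, hQ', smul_zero]
  -- `f` is `p`-power torsion and non-zero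
  have hf0 : f ≠ 0 := fun h => hne (by rw [h, map_zero])
  have hpf : θ (p • f) = 0 := by rw [map_nsmul, hpθ]
  have hft : ∃ m : ℕ, p ^ m • f = 0 :=
    ⟨n + 1, by rw [pow_succ, mul_smul]; exact hK.tors _ hpf⟩
  obtain ⟨k, hk1, hk0⟩ := exists_exact hf0 hft
  -- `z = σ₀ f - f` lies in the kernel
  have hσθ : σ₀ • θ f = θ f := by rw [← hc, smul_zsmul_comm, hfix]
  have hz : θ (σ₀ • f - f) = 0 := by rw [map_sub, hθ, hσθ, sub_self]
  have hzF : σ₀ • f - f ∈ F := hK.mem _ hz
  have hzt : ∃ m : ℕ, p ^ m • (σ₀ • f - f) = 0 := ⟨n, hK.tors _ hz⟩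
  -- `z` is a multiple of `f`
  have hzf : σ₀ • f - f ∈ AddSubgroup.zmultiples f := by
    rcases mem_zmultiples_or hp hD.cyc hzF hf hzt hft with h | h
    · exact h
    · exfalso
      obtain ⟨d, hd⟩ := AddSubgroup.mem_zmultiples_iff.mp h
      apply hne
      rw [← hd, map_zsmul, hz, smul_zero]
  obtain ⟨u, hu⟩ := AddSubgroup.mem_zmultiples_iff.mp hzf
  -- `p ∣ u`
  have hpu : (p : ℤ) ∣ u := by
    have h1 : u • θ f = 0 := by rw [← map_zsmul, hu, hz]
    have : Fact p.Prime := ⟨hp⟩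
    have hord : addOrderOf (θ f) = p := addOrderOf_eq_prime hpθ hne
    rw [← hord]
    exact (addOrderOf_dvd_iff_zsmul_eq_zero).mpr h1
  obtain ⟨w, rfl⟩ := hpu
  -- `σ₀` fixes `h = p ^ k • f`
  have hσf : σ₀ • f = f + ((p : ℤ) * w) • f := by rw [hu]; abel
  have hσh : σ₀ • (p ^ k • f) = p ^ k • f := by
    rw [smul_nsmul_comm, hσf, smul_add, mul_comm, mul_smul, natCast_zsmul, smul_comm (p ^ k) w,
      ← mul_smul (p ^ k) p, ← pow_succ, hk1, smul_zero, add_zero]
  -- `g₀` is a multiple of `h`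
  have hhF : p ^ k • f ∈ F := F.nsmul_mem hf _
  have hph : p • (p ^ k • f) = 0 := by rw [← mul_smul, ← pow_succ']; exact hk1
  have hg₀h : g₀ ∈ AddSubgroup.zmultiples (p ^ k • f) :=
    mem_zmultiples_of_ne_zero hp hg₀ (hcyc _ hhF hph) hk0
  obtain ⟨e, he⟩ := AddSubgroup.mem_zmultiples_iff.mp hg₀h
  apply hD.σ₀_ne
  rw [← he, smul_zsmul_comm, hσh]

/-- **(loc) at the place**: an element of `I` which moves `x'` by a multiple of `Q'` fixes it. -/
theorem locFree (hp : p.Prime) (hD : Datum p I F g₀ σ₀)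
    (hθ : ∀ (σ : Γ) (x : G), θ (σ • x) = σ • θ x) (hsurj : Function.Surjective θ)
    (hK : Ker p F θ n) {Q' : G'} (hQ' : p • Q' = 0) (hfix : σ₀ • Q' = Q') {σ : Γ} (hσ : σ ∈ I)
    (x' : G') (hx' : σ • x' - x' ∈ AddSubgroup.zmultiples Q') : σ • x' = x' := by
  obtain ⟨y, rfl⟩ := hsurj x'
  have h1 : θ (σ • y - y) = σ • θ y - θ y := by rw [map_sub, hθ]
  rw [← h1] at hx'
  have h2 := eq_zero_of_mem_zmultiples hp hD hθ hK hQ' hfix (hD.move σ hσ y) hx'
  rw [h1] at h2
  exact sub_eq_zero.mp h2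

/-- The marked point does not lie in the image of `F`. -/
theorem not_mem_image (hp : p.Prime) (hD : Datum p I F g₀ σ₀)
    (hθ : ∀ (σ : Γ) (x : G), θ (σ • x) = σ • θ x) (hK : Ker p F θ n) {Q' : G'}
    (hQ0 : Q' ≠ 0) (hQ' : p • Q' = 0) (hfix : σ₀ • Q' = Q') {f : G} (hf : f ∈ F) :
    θ f ≠ Q' := by
  intro h
  have := eq_zero_of_mem_zmultiples hp hD hθ hK hQ' hfix hf
    (by rw [h]; exact AddSubgroup.mem_zmultiples Q')
  exact hQ0 (h ▸ this)

/-- **(P4), abstract**: if `F` has a `p`-power torsion element outside the kernel of `θ`, the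
image of `F` contains a non-zero point killed by `p`. -/
theorem exists_tors_image {f : G} (hf : f ∈ F) (hft : ∃ m : ℕ, p ^ m • f = 0)
    (hθf : θ f ≠ 0) : ∃ f' ∈ F, θ f' ≠ 0 ∧ p • θ f' = 0 := by
  classical
  have hex : ∃ m : ℕ, θ (p ^ m • f) = 0 := by
    obtain ⟨m, hm⟩ := hft
    exact ⟨m, by rw [hm, map_zero]⟩
  have hpos : Nat.find hex ≠ 0 := by
    intro h0
    have := Nat.find_spec hex
    rw [h0, pow_zero, one_smul] at this
    exact hθf this
  obtain ⟨j, hj⟩ := Nat.exists_eq_succ_of_ne_zero hpos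
  refine ⟨p ^ j • f, F.nsmul_mem hf _, ?_, ?_⟩
  · exact Nat.find_min hex (by rw [hj]; exact Nat.lt_succ_self j)
  · have := Nat.find_spec hex
    rw [hj, pow_succ', mul_smul, map_nsmul] at this
    exact this

/-- An element of exact order `p ^ (n + 1)` is not in the kernel of `θ`. -/
theorem Ker.apply_ne_zero (hK : Ker p F θ n) {f : G} (hf : p ^ n • f ≠ 0) : θ f ≠ 0 :=
  fun h => hf (hK.tors f h)

/-- A `p`-torsion point of the level on which `σ₀` acts through a scalar `c` with `c - 1`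
prime to `p` lies in the image of `F`. -/
theorem mem_image_of_eigen (hp : p.Prime) (hD : Datum p I F g₀ σ₀)
    (hθ : ∀ (σ : Γ) (x : G), θ (σ • x) = σ • θ x) (hsurj : Function.Surjective θ) {m : G'}
    (hpm : p • m = 0) {c : ℤ} (hc : ¬ (p : ℤ) ∣ c - 1) (hσm : σ₀ • m = c • m) :
    ∃ f ∈ F, θ f = m := by
  obtain ⟨y, rfl⟩ := hsurj m
  have hcop : IsCoprime (c - 1) (p : ℤ) :=
    ((Nat.prime_iff_prime_int.mp hp).irreducible.coprime_iff_not_dvd.mpr hc).symm
  obtain ⟨a, b, hab⟩ := hcop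
  refine ⟨a • (σ₀ • y - y), F.zsmul_mem (hD.move σ₀ hD.σ₀_mem y) a, ?_⟩
  rw [map_zsmul, map_sub, hθ, hσm]
  have h1 : θ y = (a * (c - 1) + b * (p : ℤ)) • θ y := by rw [hab, one_smul]
  rw [add_smul, mul_smul, mul_smul, natCast_zsmul, hpm, smul_zero, add_zero, sub_smul,
    one_smul] at h1
  exact h1.symm

/-- **The invariant passes to the next level**: if `φ` kills only points of the image of `F`
which are killed by `p`, the kernel of `φ ∘ θ` lies in `F` and is killed by `p ^ (n + 1)`. -/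
theorem Ker.comp (hK : Ker p F θ n) (φ : G' →+ G'')
    (hφ : ∀ m : G', φ m = 0 → p • m = 0 ∧ ∃ f ∈ F, θ f = m) : Ker p F (φ.comp θ) (n + 1) where
  mem := fun x hx => by
    obtain ⟨-, f, hf, hfx⟩ := hφ (θ x) hx
    have h1 : θ (x - f) = 0 := by rw [map_sub, hfx, sub_self]
    have h2 := hK.mem _ h1
    have : x = (x - f) + f := by abel
    rw [this]
    exact F.add_mem h2 hf
  tors := fun x hx => by
    obtain ⟨hp, -⟩ := hφ (θ x) hx
    have h1 : θ (p • x) = 0 := by rw [map_nsmul, hp]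
    rw [pow_succ, mul_smul]
    exact hK.tors _ h1

/-- The kernel invariant at the base: `θ₀` with kernel `⟨g₀⟩`-like: any kernel inside `F[p]`. -/
theorem Ker.base {θ₀ : G →+ G'} (h : ∀ x, θ₀ x = 0 → x ∈ F ∧ p • x = 0) : Ker p F θ₀ 1 where
  mem := fun x hx => (h x hx).1
  tors := fun x hx => by rw [pow_one]; exact (h x hx).2

end Action

end Fermat.Agent.S12.V3.PadicAbs
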