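import Fermat.Agent.S12.V1.FreyCyclo
import Fermat.Agent.S12.V3.PadicAbs

/-!
# Block [V], leaf (beta-1): the kernel of reduction of the Frey curve at a place over `p`

Legendre frame of `S13/Local/FreyP`: `L : LegP P A D d` at a valuation subring `A` of `ℚ̄` over
`p = P.p`.  The kernel of reduction `K1` is a subgroup `K1sub L` of the points of the Frey curve and

* `move_of_good`       : in the case of good reduction, `σ x - x ∈ K1` for every point `x` and every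
  `σ` in the inertia group;
* `smul_mem_K1sub`     : `K1` is stable under the decomposition group;
* `exists_exact_order` : `K1` contains a point of exact order `p ^ (m + 1)` for every `m`
  (valuation-sum identities at `p ^ m` and `p ^ (m + 1)`; no formal group);
* `exists_datum`       : the datum `PadicAbs.Datum` — the `p`-torsion of `K1` is cyclic, generated by
  a point which some inertia element `σ₀` with `cycloChar σ₀ ≠ 1` moves;
* `mem_K1sub_of_mem`   : a cofixed line `N` lies in `K1`.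
-/

set_option autoImplicit false
set_option linter.unusedSectionVars false

noncomputable section

open WeierstrassCurve WeierstrassCurve.Affine WeierstrassCurve.Affine.Point

namespace Fermat.Agent.S12.V3.FreyK1

open Fermat.Agent.S05 Fermat.Agent.S05.LegData Fermat.Agent.S05.FreyLeg
  Fermat.Agent.S13.Global Fermat.Agent.S13.Local.FreyP Fermat.Agent.S05.Kernel
  Fermat.Agent.S12.V1.LegCyclo Fermat.Agent.S12.V1.FreyCyclo Fermat.Agent.S12.V3.PadicAbs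
  Fermat.Agent.S13.Local.Excl ExtCitation
open scoped Pointwise

local notation "Qbar" => AlgebraicClosure ℚ
local notation "GQ" => (AlgebraicClosure ℚ ≃ₐ[ℚ] AlgebraicClosure ℚ)

/-! ### The valuation-sum identity for torsion of any odd order -/

section General

variable {G : Type*} [AddCommGroup G] {e₁ e₂ : Qbar} (D : LegData Qbar G e₁ e₂)
  {A : ValuationSubring Qbar}

/-- `LegCyclo.valuation_prod_tau` with an arbitrary non-zero denominator `q`. -/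
theorem valuation_prod_tau_gen (q : ℕ) (hq : q ≠ 0)
    (he₁ : A.valuation e₁ ≤ 1) (he2 : A.valuation e₂ = 1) (he12 : A.valuation (e₁ - e₂) = 1)
    {n : ℕ} (hodd : Odd n) (Vs : Finset G) (hVs : ∀ T, T ∈ Vs ↔ n • T = 0 ∧ T ≠ 0) (k : ℕ)
    (hVS : (∏ T ∈ Vs, (D.X T - e₂)) ^ 2 = (e₂ * (e₂ - e₁)) ^ k / ((q : ℕ) : Qbar) ^ 4)
    [DecidablePred fun T => D.K1 A T] :
    A.valuation (∏ T ∈ Vs.filter (fun T => D.K1 A T), tau D T) = A.valuation ((q : ℕ) : Qbar) := by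
  set v := A.valuation with hv
  have he₂ : v e₂ ≤ 1 := le_of_eq he2
  have hq0 : ((q : ℕ) : Qbar) ≠ 0 := by exact_mod_cast hq
  have hvq0 : v ((q : ℕ) : Qbar) ≠ 0 := by rwa [Ne, map_eq_zero]
  have hD : v (e₂ * (e₂ - e₁)) = 1 := by
    rw [map_mul, he2, one_mul, Valuation.map_sub_swap, he12]
  have h1 : ∀ T ∈ Vs, v (D.X T - e₂) * (if D.K1 A T then v (tau D T) ^ 2 else 1) = 1 := by
    intro T hT
    obtain ⟨hpT, hT0⟩ := (hVs T).mp hT
    by_cases hK : D.K1 A T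
    · rw [if_pos hK, valuation_X_sub D he₂ hT0 hK]
      exact valuation_X_mul_tau_sq D he₁ he₂ hT0 hK
    · rw [if_neg hK, mul_one]
      exact valuation_X_sub_eq_one D he₁ he2 he12 hodd hT0 hpT hK
  have h2 : v (∏ T ∈ Vs, (D.X T - e₂)) *
      v (∏ T ∈ Vs.filter (fun T => D.K1 A T), tau D T) ^ 2 = 1 := by
    rw [map_prod, map_prod, ← Finset.prod_pow, Finset.prod_filter, ← Finset.prod_mul_distrib]
    exact Finset.prod_eq_one h1
  have h3 : v (∏ T ∈ Vs, (D.X T - e₂)) ^ 2 = (v ((q : ℕ) : Qbar) ^ 4)⁻¹ := by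
    have := congrArg v hVS
    rw [map_pow, map_div₀, map_pow, hD, one_pow, map_pow, one_div] at this
    exact this
  have h4 : v (∏ T ∈ Vs.filter (fun T => D.K1 A T), tau D T) ^ 4 = v ((q : ℕ) : Qbar) ^ 4 := by
    have h5 : (v (∏ T ∈ Vs, (D.X T - e₂)) *
        v (∏ T ∈ Vs.filter (fun T => D.K1 A T), tau D T) ^ 2) ^ 2 = 1 := by
      rw [h2, one_pow]
    rw [mul_pow, h3, ← pow_mul] at h5
    have hne : v ((q : ℕ) : Qbar) ^ 4 ≠ 0 := pow_ne_zero _ hvq0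
    field_simp at h5
    exact h5
  exact (pow_left_inj₀ zero_le zero_le (by norm_num : (4 : ℕ) ≠ 0)).mp h4

end General

variable {P : FreyPackage}

section core

variable {A : ValuationSubring Qbar} {e₁ e₂ d : Qbar}
  {D : LegData Qbar (P.freyCurve⁄Qbar).Point e₁ e₂}

/-- The kernel of reduction as a subgroup of the points of the Frey curve. -/
def K1sub (L : LegP P A D d) : AddSubgroup (P.freyCurve⁄Qbar).Point where
  carrier := {T | D.K1 A T}
  zero_mem' := Inertia.K1_zero D A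
  add_mem' := fun {x y} hx hy => by
    have := FreyInst.charZero Qbar
    exact Kernel.K1.add L.he₁ L.he₂ hx hy
  neg_mem' := fun {x} hx => by
    have := FreyInst.charZero Qbar
    exact Inertia.K1_neg D A hx

theorem mem_K1sub_iff (L : LegP P A D d) (T : (P.freyCurve⁄Qbar).Point) :
    T ∈ K1sub L ↔ D.K1 A T := Iff.rfl

/-- **(Fb), good reduction**: inertia moves every point inside the kernel of reduction. -/
theorem move_of_good (L : LegP P A D d) (hgood : A.valuation e₁ = 1) {σ : GQ}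
    (hσ : σ ∈ A.inertiaSubgroupIn ℚ) (x : (P.freyCurve⁄Qbar).Point) : σ • x - x ∈ K1sub L := by
  have := FreyInst.charZero Qbar
  have hadd : ∀ S T, D.K1 A S → D.K1 A T → D.K1 A (S + T) :=
    fun S T hS hT => Kernel.K1.add L.he₁ L.he₂ hS hT
  exact Fermat.Agent.S05.Core.sub_mem_K1 (L.hact σ hσ) hadd L.h2 L.he₁ L.he2 L.he12
    (P := x) (Or.inl hgood)

/-- **(Fa)**: the kernel of reduction is stable under the decomposition group, as soon as the
`X`-coordinate is Galois-equivariant. -/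
theorem smul_mem_K1sub (L : LegP P A D d)
    (hX : ∀ (σ : GQ) (T : (P.freyCurve⁄Qbar).Point), D.X (σ • T) = σ (D.X T)) {σ : GQ}
    (hσ : σ ∈ A.decompositionSubgroup ℚ) {T : (P.freyCurve⁄Qbar).Point} (hT : T ∈ K1sub L) :
    σ • T ∈ K1sub L := by
  rcases hT with h0 | h1
  · left
    rw [h0]
    exact _root_.map_zero (pointHom (W' := P.freyCurve) σ)
  · right
    rw [hX σ T, ← not_le, A.valuation_le_one_iff] at *
    intro hmem
    apply h1
    have h2 : σ⁻¹ ∈ A.decompositionSubgroup ℚ := (A.decompositionSubgroup ℚ).inv_mem hσ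
    have h3 : σ⁻¹ • A = A := h2
    have h4 : σ⁻¹ (σ (D.X T)) ∈ σ⁻¹ • A := ⟨σ (D.X T), hmem, rfl⟩
    rw [h3] at h4
    have e : σ⁻¹ (σ (D.X T)) = D.X T := σ.symm_apply_apply _
    rwa [e] at h4

/-- The finite set of non-zero `n`-torsion points. -/
theorem exists_finset_torsion_gen {n : ℕ} (hn : n ≠ 0)
    (hcard : Nat.card (Tors P.freyCurve n) = n ^ 2) :
    ∃ Vs : Finset (P.freyCurve⁄Qbar).Point, ∀ T, T ∈ Vs ↔ n • T = 0 ∧ T ≠ 0 := by
  classical
  have hfin : Finite (Tors P.freyCurve n) :=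
    Nat.finite_of_card_ne_zero (by rw [hcard]; exact pow_ne_zero _ hn)
  have hfinS : (Submodule.torsionBy ℤ (P.freyCurve⁄Qbar).Point n :
      Set (P.freyCurve⁄Qbar).Point).Finite := Set.finite_coe_iff.mp hfin
  refine ⟨hfinS.toFinset.erase 0, fun T => ?_⟩
  simp only [Finset.mem_erase, Set.Finite.mem_toFinset, SetLike.mem_coe,
    Submodule.mem_torsionBy_iff, natCast_zsmul]
  exact and_comm

/-- **(Fe)**: the kernel of reduction contains a point of exact order `p ^ (m + 1)`. -/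
theorem exists_exact_order (L : LegP P A D d) (hA : A.LiesOverPrime P.p)
    (hcard : ∀ m : ℕ, Nat.card (Tors P.freyCurve (P.p ^ m)) = (P.p ^ m) ^ 2)
    (hVS : ∀ m : ℕ, ∀ S : Finset (P.freyCurve⁄Qbar).Point,
      (∀ T, T ∈ S ↔ P.p ^ m • T = 0 ∧ T ≠ 0) →
      (∏ T ∈ S, (D.X T - e₂)) ^ 2 =
        (e₂ * (e₂ - e₁)) ^ ((P.p ^ m) ^ 2 - 1) / ((P.p ^ m : ℕ) : Qbar) ^ 4)
    (m : ℕ) : ∃ f ∈ K1sub L, P.p ^ (m + 1) • f = 0 ∧ P.p ^ m • f ≠ 0 := by
  classical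
  by_contra hcon
  push Not at hcon
  have hp0 : ∀ j : ℕ, P.p ^ j ≠ 0 := fun j => pow_ne_zero _ P.pp.ne_zero
  have hodd : ∀ j : ℕ, Odd (P.p ^ j) := fun j => P.hp_odd.pow
  obtain ⟨V₀, hV₀⟩ := exists_finset_torsion_gen (hp0 m) (hcard m)
  obtain ⟨V₁, hV₁⟩ := exists_finset_torsion_gen (hp0 (m + 1)) (hcard (m + 1))
  have h0 := valuation_prod_tau_gen D (A := A) (P.p ^ m) (hp0 m) L.he₁ L.he2 L.he12 (hodd m) V₀ hV₀
    _ (hVS m V₀ hV₀)
  have h1 := valuation_prod_tau_gen D (A := A) (P.p ^ (m + 1)) (hp0 (m + 1)) L.he₁ L.he2 L.he12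
    (hodd (m + 1)) V₁ hV₁ _ (hVS (m + 1) V₁ hV₁)
  have hfilter : V₁.filter (fun T => D.K1 A T) = V₀.filter (fun T => D.K1 A T) := by
    ext T
    simp only [Finset.mem_filter, hV₀, hV₁]
    constructor
    · rintro ⟨⟨h1, h2⟩, h3⟩
      exact ⟨⟨hcon T h3 h1, h2⟩, h3⟩
    · rintro ⟨⟨h1, h2⟩, h3⟩
      refine ⟨⟨?_, h2⟩, h3⟩
      rw [pow_succ', mul_smul, h1, nsmul_zero]
  rw [hfilter, h0] at h1
  have hvp := LocalVal.q_valuation_lt_one (L := Qbar) hA
  have hvp0 : A.valuation ((P.p : ℕ) : Qbar) ≠ 0 := by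
    rw [Ne, map_eq_zero]
    exact_mod_cast P.pp.ne_zero
  rw [Nat.cast_pow, Nat.cast_pow, map_pow, map_pow, pow_succ] at h1
  have h2 : A.valuation ((P.p : ℕ) : Qbar) ^ m * 1
      = A.valuation ((P.p : ℕ) : Qbar) ^ m * A.valuation ((P.p : ℕ) : Qbar) := by
    rw [mul_one]; exact h1
  have h3 := mul_left_cancel₀ (pow_ne_zero m hvp0) h2
  rw [← h3] at hvp
  exact lt_irrefl _ hvp

/-- A generator of `V₁ = E[p] ∩ K1` together with the valuation of its parameter. -/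
theorem exists_generator (L : LegP P A D d) (hA : A.LiesOverPrime P.p)
    (hcard : Nat.card (Tors P.freyCurve P.p) = P.p ^ 2)
    (hVS : ∀ S : Finset (P.freyCurve⁄Qbar).Point, (∀ T, T ∈ S ↔ P.p • T = 0 ∧ T ≠ 0) →
      (∏ T ∈ S, (D.X T - e₂)) ^ 2 =
        (e₂ * (e₂ - e₁)) ^ (P.p ^ 2 - 1) / ((P.p : ℕ) : Qbar) ^ 4)
    (N : Submodule (ZMod P.p) (Tors P.freyCurve P.p)) (hN : IsGaloisStable ℚ N)
    (hbot : N ≠ ⊥) (htop : N ≠ ⊤) :
    ∃ T₀ : Tors P.freyCurve P.p, T₀ ∈ V1 L ∧ (T₀ : (P.freyCurve⁄Qbar).Point) ≠ 0 ∧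
      (∀ x ∈ V1 L, ∃ m : ℕ, x = m • T₀) ∧
      A.valuation (tau D (T₀ : (P.freyCurve⁄Qbar).Point)) ^ (P.p - 1)
        = A.valuation ((P.p : ℕ) : Qbar) := by
  classical
  have : Fact P.p.Prime := ⟨P.pp⟩
  have := FreyInst.charZero Qbar
  have hp := P.pp
  have hp2 : P.p ≠ 2 := by have := P.hp5; omega
  have hc1 : Nat.card (V1 L) = P.p := card_V1 L hA hcard hVS N hN hbot htop
  obtain ⟨g₀, hg₀⟩ := (AddSubgroup.ne_bot_iff_exists_ne_zero).mp (V1_ne_bot L hA hcard hVS)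
  set T₀ : Tors P.freyCurve P.p := g₀.1 with hT₀def
  have hT₀V : T₀ ∈ V1 L := g₀.2
  have hT₀0 : T₀ ≠ 0 := fun h => hg₀ (Subtype.ext h)
  have hK₀ : D.K1 A (T₀ : (P.freyCurve⁄Qbar).Point) := hT₀V
  have hT₀p0 : (T₀ : (P.freyCurve⁄Qbar).Point) ≠ 0 := fun h => hT₀0 (Subtype.ext h)
  have hpT₀ : P.p • (T₀ : (P.freyCurve⁄Qbar).Point) = 0 :=
    FreyLegInst.nsmul_eq_zero_of_mem_torsionBy P T₀
  have hpT₀' : P.p • T₀ = 0 := Subtype.ext hpT₀
  have hcycV : ∀ x ∈ V1 L, ∃ m : ℕ, x = m • T₀ := by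
    intro x hx
    obtain ⟨k, hk⟩ := exists_zsmul_of_prime_card hc1 hg₀ (⟨x, hx⟩ : V1 L)
    have hk' : x = k • T₀ := congrArg Subtype.val hk
    obtain ⟨m, hm⟩ := exists_nsmul_eq_zsmul hp.ne_zero hpT₀' k
    exact ⟨m, hk'.trans hm⟩
  have hcycP : ∀ T : (P.freyCurve⁄Qbar).Point, P.p • T = 0 → D.K1 A T →
      ∃ m : ℕ, T = m • (T₀ : (P.freyCurve⁄Qbar).Point) := by
    intro T hpT hK
    have hmem : T ∈ Submodule.torsionBy ℤ (P.freyCurve⁄Qbar).Point P.p := by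
      rw [Submodule.mem_torsionBy_iff, natCast_zsmul]
      exact hpT
    obtain ⟨m, hm⟩ := hcycV (⟨T, hmem⟩ : Tors P.freyCurve P.p) hK
    exact ⟨m, congrArg Subtype.val hm⟩
  obtain ⟨Vs, hVs⟩ := exists_finset_torsion hcard
  have hval := valuation_tau_pow D P.p hA L.he₁ L.he2 L.he12 hp2 Vs hVs (P.p ^ 2 - 1)
    (hVS Vs hVs) hT₀p0 hK₀ hpT₀ hcycP
  exact ⟨T₀, hT₀V, hT₀p0, hcycV, hval⟩

/-- A natural number congruent to `1` modulo `p` acts trivially on a point killed by `p`. -/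
theorem nsmul_eq_self_of_cast_eq_one {G : Type*} [AddCommGroup G] {p : ℕ} (hp : 1 < p) {T : G}
    (hpT : p • T = 0) {n : ℕ} (hn : ((n : ℕ) : ZMod p) = 1) : n • T = T := by
  have h1 : ((n : ℕ) : ZMod p) = ((1 : ℕ) : ZMod p) := by rw [hn, Nat.cast_one]
  rw [ZMod.natCast_eq_natCast_iff'] at h1
  rw [Nat.mod_eq_of_lt hp] at h1
  have h2 : n = p * (n / p) + 1 := by
    have := Nat.div_add_mod n p
    rw [h1] at this
    exact this.symm
  rw [h2, add_smul, mul_comm, mul_smul, one_smul, hpT, smul_zero, zero_add]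

/-- **(Fc) + (Fd)**: a generator `g₀` of the `p`-torsion of the kernel of reduction and an inertia
element `σ₀` which moves it; `cycloChar σ₀ ≠ 1`. -/
theorem exists_gen_sigma (L : LegP P A D d) (hA : A.LiesOverPrime P.p)
    (hcard : Nat.card (Tors P.freyCurve P.p) = P.p ^ 2)
    (hVS : ∀ S : Finset (P.freyCurve⁄Qbar).Point, (∀ T, T ∈ S ↔ P.p • T = 0 ∧ T ≠ 0) →
      (∏ T ∈ S, (D.X T - e₂)) ^ 2 =
        (e₂ * (e₂ - e₁)) ^ (P.p ^ 2 - 1) / ((P.p : ℕ) : Qbar) ^ 4)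
    (N : Submodule (ZMod P.p) (Tors P.freyCurve P.p)) (hN : IsGaloisStable ℚ N)
    (hbot : N ≠ ⊥) (htop : N ≠ ⊤) :
    haveI : Fact P.p.Prime := ⟨P.pp⟩
    ∃ (g₀ : (P.freyCurve⁄Qbar).Point) (σ₀ : GQ), D.K1 A g₀ ∧ P.p • g₀ = 0 ∧
      (∀ f : (P.freyCurve⁄Qbar).Point, D.K1 A f → P.p • f = 0 →
        f ∈ AddSubgroup.zmultiples g₀) ∧
      σ₀ ∈ A.inertiaSubgroupIn ℚ ∧ σ₀ • g₀ ≠ g₀ ∧
        ((cycloChar P.p σ₀ : (ZMod P.p)ˣ) : ZMod P.p) ≠ 1 := by
  classical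
  have : Fact P.p.Prime := ⟨P.pp⟩
  have := FreyInst.charZero Qbar
  have hp := P.pp
  have hp3 : 3 ≤ P.p := by have := P.hp5; omega
  obtain ⟨T₀, hT₀V, hT₀p0, hcycV, hval⟩ := exists_generator L hA hcard hVS N hN hbot htop
  have hK₀ : D.K1 A (T₀ : (P.freyCurve⁄Qbar).Point) := hT₀V
  have hpT₀ : P.p • (T₀ : (P.freyCurve⁄Qbar).Point) = 0 :=
    FreyLegInst.nsmul_eq_zero_of_mem_torsionBy P T₀
  -- an inertia element which moves `T₀`
  have hex : ∃ σ₀ ∈ A.inertiaSubgroupIn ℚ,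
      σ₀ • (T₀ : (P.freyCurve⁄Qbar).Point) ≠ (T₀ : (P.freyCurve⁄Qbar).Point) := by
    by_contra hcon
    push Not at hcon
    refine not_forall_fixed D P.p hA hp3 L.he₁ L.he₂ hT₀p0 hK₀ hval fun σ hσ => ?_
    have h5 : pointHom (W' := P.freyCurve) σ (T₀ : (P.freyCurve⁄Qbar).Point)
        = (T₀ : (P.freyCurve⁄Qbar).Point) := hcon σ hσ
    have h6 := tau_map D (L.hact σ hσ) hT₀p0
    rw [h5] at h6
    exact h6.symm
  obtain ⟨σ₀, hσ₀, hne⟩ := hex
  refine ⟨T₀, σ₀, hK₀, hpT₀, fun f hf hpf => ?_, hσ₀, hne, ?_⟩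
  · have hmem : f ∈ Submodule.torsionBy ℤ (P.freyCurve⁄Qbar).Point P.p := by
      rw [Submodule.mem_torsionBy_iff, natCast_zsmul]
      exact hpf
    obtain ⟨m, hm⟩ := hcycV (⟨f, hmem⟩ : Tors P.freyCurve P.p) hf
    have hm' : f = m • (T₀ : (P.freyCurve⁄Qbar).Point) := congrArg Subtype.val hm
    rw [hm']
    exact AddSubgroup.nsmul_mem_zmultiples _ m
  · intro hχ
    obtain ⟨ζ, hζ⟩ := Fermat.Agent.CFT.Bridge.exists_isPrimitiveRoot_Qbar P.p
    have hs := L.hact σ₀ hσ₀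
    have hKσ : σ₀ • T₀ ∈ V1 L := Kernel.K1.map hs hK₀
    obtain ⟨n, hn⟩ := hcycV (σ₀ • T₀) hKσ
    have hnP : pointHom (W' := P.freyCurve) σ₀ (T₀ : (P.freyCurve⁄Qbar).Point)
        = n • (T₀ : (P.freyCurve⁄Qbar).Point) := congrArg Subtype.val hn
    have hc := Fermat.Agent.CFT.Bridge.apply_eq_pow_cycloChar P.p hζ σ₀
    have hcast := cast_eq_of_inertia D hp hA L.he₁ L.he₂ hs hT₀p0 hK₀ hval hζ hnP hc
    rw [ZMod.natCast_zmod_val, hχ] at hcast
    apply hne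
    change pointHom (W' := P.freyCurve) σ₀ (T₀ : (P.freyCurve⁄Qbar).Point) = _
    rw [hnP]
    exact nsmul_eq_self_of_cast_eq_one hp.one_lt hpT₀ hcast

/-- The datum of `PadicAbs` for the kernel of reduction, given **(Fb)**. -/
theorem exists_datum (L : LegP P A D d) (hA : A.LiesOverPrime P.p)
    (hcard : Nat.card (Tors P.freyCurve P.p) = P.p ^ 2)
    (hVS : ∀ S : Finset (P.freyCurve⁄Qbar).Point, (∀ T, T ∈ S ↔ P.p • T = 0 ∧ T ≠ 0) →
      (∏ T ∈ S, (D.X T - e₂)) ^ 2 =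
        (e₂ * (e₂ - e₁)) ^ (P.p ^ 2 - 1) / ((P.p : ℕ) : Qbar) ^ 4)
    (N : Submodule (ZMod P.p) (Tors P.freyCurve P.p)) (hN : IsGaloisStable ℚ N)
    (hbot : N ≠ ⊥) (htop : N ≠ ⊤)
    (hmove : ∀ σ ∈ A.inertiaSubgroupIn ℚ, ∀ x : (P.freyCurve⁄Qbar).Point,
      σ • x - x ∈ K1sub L) :
    haveI : Fact P.p.Prime := ⟨P.pp⟩
    ∃ (g₀ : (P.freyCurve⁄Qbar).Point) (σ₀ : GQ),
      Datum P.p (A.inertiaSubgroupIn ℚ) (K1sub L) g₀ σ₀ ∧
        ((cycloChar P.p σ₀ : (ZMod P.p)ˣ) : ZMod P.p) ≠ 1 := by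
  obtain ⟨g₀, σ₀, hK₀, hpg₀, hcyc, hσ₀, hne, hχ⟩ :=
    exists_gen_sigma L hA hcard hVS N hN hbot htop
  exact ⟨g₀, σ₀, ⟨hmove, ⟨hK₀, hpg₀, fun f hf hpf => hcyc f hf hpf⟩, hσ₀, hne⟩, hχ⟩

/-- A cofixed line lies in the kernel of reduction. -/
theorem mem_K1sub_of_mem (L : LegP P A D d) (hA : A.LiesOverPrime P.p)
    (hcard : Nat.card (Tors P.freyCurve P.p) = P.p ^ 2)
    (hVS : ∀ S : Finset (P.freyCurve⁄Qbar).Point, (∀ T, T ∈ S ↔ P.p • T = 0 ∧ T ≠ 0) →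
      (∏ T ∈ S, (D.X T - e₂)) ^ 2 =
        (e₂ * (e₂ - e₁)) ^ (P.p ^ 2 - 1) / ((P.p : ℕ) : Qbar) ^ 4)
    (N : Submodule (ZMod P.p) (Tors P.freyCurve P.p)) (hN : IsGaloisStable ℚ N)
    (hbot : N ≠ ⊥) (htop : N ≠ ⊤) (hcof : A.inertiaSubgroupIn ℚ ≤ cofixer N)
    {x : Tors P.freyCurve P.p} (hx : x ∈ N) : (x : (P.freyCurve⁄Qbar).Point) ∈ K1sub L := by
  classical
  have : Fact P.p.Prime := ⟨P.pp⟩
  have := FreyInst.charZero Qbar
  have hp3 : 3 ≤ P.p := by have := P.hp5; omega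
  have hc1 : Nat.card (V1 L) = P.p := card_V1 L hA hcard hVS N hN hbot htop
  obtain ⟨T₀, hT₀V, hT₀p0, hcycV, hval⟩ := exists_generator L hA hcard hVS N hN hbot htop
  have hK₀ : D.K1 A (T₀ : (P.freyCurve⁄Qbar).Point) := hT₀V
  have hT₀0 : T₀ ≠ 0 := fun h => hT₀p0 (by rw [h]; rfl)
  have hg₀ : (⟨T₀, hT₀V⟩ : V1 L) ≠ 0 := fun h => hT₀0 (congrArg Subtype.val h)
  have hT₀N : T₀ ∈ N := by
    by_contra hnot
    refine not_forall_fixed D P.p hA hp3 L.he₁ L.he₂ hT₀p0 hK₀ hval fun σ hσ => ?_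
    have h1 : σ • T₀ - T₀ ∈ V1 L := smul_sub_mem_V1 L hσ T₀
    have h2 : σ • T₀ - T₀ ∈ N := hcof hσ T₀
    have h3 : σ • T₀ - T₀ = 0 := by
      by_contra hne
      have hne' : (⟨σ • T₀ - T₀, h1⟩ : V1 L) ≠ 0 := fun h => hne (congrArg Subtype.val h)
      obtain ⟨k, hk⟩ := exists_zsmul_of_prime_card hc1 hne' (⟨T₀, hT₀V⟩ : V1 L)
      have hk' : T₀ = k • (σ • T₀ - T₀) := congrArg Subtype.val hk
      apply hnot
      rw [hk']
      exact N.toAddSubgroup.zsmul_mem h2 k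
    have h4 : σ • T₀ = T₀ := sub_eq_zero.mp h3
    have h5 : pointHom (W' := P.freyCurve) σ (T₀ : (P.freyCurve⁄Qbar).Point)
        = (T₀ : (P.freyCurve⁄Qbar).Point) := congrArg Subtype.val h4
    have h6 := tau_map D (L.hact σ hσ) hT₀p0
    rw [h5] at h6
    exact h6.symm
  have hcN : Nat.card N = P.p :=
    Fermat.Agent.S13.LineAlgebra.card_eq_of_ne_bot_of_ne_top hcard N hbot htop
  have hg' : (⟨T₀, hT₀N⟩ : N) ≠ 0 := fun h => hT₀0 (congrArg Subtype.val h)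
  obtain ⟨k, hk⟩ := exists_zsmul_of_prime_card hcN hg' (⟨x, hx⟩ : N)
  have hk' : x = k • T₀ := congrArg Subtype.val hk
  have hk'' : (x : (P.freyCurve⁄Qbar).Point) = k • (T₀ : (P.freyCurve⁄Qbar).Point) := by
    rw [hk']; rfl
  rw [hk'']
  exact (K1sub L).zsmul_mem hK₀ k

end core

/-! ### The package at one place, and the case of good reduction at `p` -/

section legs

open Fermat.Agent.S13.Local.FreyPArith Fermat.Agent.S05.FreyInst Fermat.Agent.S05.FreyLegInst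

/-- Everything the tower needs from the Frey curve at a place `A` over `p`: a subgroup `F` of the
points (the kernel of reduction, or the points with non-singular reduction), the datum of
`PadicAbs`, stability under the decomposition group, points of every `p`-power order, and the
cofixed line inside `F`. -/
structure PlaceData (P : FreyPackage) [Fact P.p.Prime]
    (N : Submodule (ZMod P.p) (Tors P.freyCurve P.p)) (A : ValuationSubring Qbar)
    (F : AddSubgroup (P.freyCurve⁄Qbar).Point) (g₀ : (P.freyCurve⁄Qbar).Point) (σ₀ : GQ) :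
    Prop where
  datum : Datum P.p (A.inertiaSubgroupIn ℚ) F g₀ σ₀
  cyc_ne : ((cycloChar P.p σ₀ : (ZMod P.p)ˣ) : ZMod P.p) ≠ 1
  stable : ∀ σ ∈ A.decompositionSubgroup ℚ, ∀ f ∈ F, σ • f ∈ F
  deep : ∀ m : ℕ, ∃ f ∈ F, P.p ^ (m + 1) • f = 0 ∧ P.p ^ m • f ≠ 0
  line : ∀ x ∈ N, (x : (P.freyCurve⁄Qbar).Point) ∈ F

variable (P)

/-- The cardinality of the `p ^ m`-torsion of the Frey curve. -/
theorem natCard_frey_pow (m : ℕ) :
    Nat.card (Tors P.freyCurve (P.p ^ m)) = (P.p ^ m) ^ 2 :=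
  Fermat.Agent.S13.CU.FreyInputs.torsionCard_rat P.freyCurve
    (Fermat.Agent.S13.CU.FreyInputs.frey_Δ_ne_zero P) (pow_pos P.hppos m)

/-- The valuation-sum identity of the Frey curve at `p ^ m`. -/
theorem valSum_frey_pow (m : ℕ) :
    Fermat.Agent.S13.Iface.ValSum (P.freyCurve.baseChange Qbar) (P.p ^ m) :=
  Fermat.Agent.S13.CU.FreyInputs.valSum_rat P.freyCurve
    (Fermat.Agent.S13.CU.FreyInputs.frey_Δ_ne_zero P) P.hp_odd.pow

theorem natCast_pow_ne_zero (m : ℕ) : ((P.p ^ m : ℕ) : Qbar) ≠ 0 := by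
  have := FreyInst.charZero Qbar
  exact Nat.cast_ne_zero.mpr (pow_ne_zero _ P.pp.ne_zero)

/-- **Good reduction at `p`** (`p ∤ abc`): the package at a place over `p`, with `F` the kernel of
reduction in the coordinates of `legA`. -/
theorem exists_placeData_of_good [Fact P.p.Prime] (ha : ¬ (P.p : ℤ) ∣ P.a)
    (hb : ¬ (P.p : ℤ) ∣ P.b) (hc : ¬ (P.p : ℤ) ∣ P.c)
    (N : Submodule (ZMod P.p) (Tors P.freyCurve P.p)) (hN : IsGaloisStable ℚ N)
    (hbot : N ≠ ⊥) (htop : N ≠ ⊤) (A : ValuationSubring Qbar) (hA : A.LiesOverPrime P.p)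
    (hcof : A.inertiaSubgroupIn ℚ ≤ cofixer N) :
    ∃ (F : AddSubgroup (P.freyCurve⁄Qbar).Point) (g₀ : (P.freyCurve⁄Qbar).Point) (σ₀ : GQ),
      PlaceData P N A F g₀ σ₀ := by
  have hcard := Fermat.Agent.S13.CU.FreyInputs.natCard_frey P
  have hVS : Fermat.Agent.S13.Iface.ValSum (P.freyCurve⁄Qbar) P.p :=
    Fermat.Agent.S13.CU.FreyInputs.valSum_frey P
  have L := legP_A P hA hb hc
  have hVS1 := fun S hS => Fermat.Agent.S13.CU.Transport.valSum_legA P Qbar hcard hVS S hS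
  have hgood : A.valuation (cA P Qbar) = 1 := by
    rw [L.hd, map_pow, LocalVal.intCast_valuation_eq_one P.pp hA ha, one_pow]
  have hmove : ∀ σ ∈ A.inertiaSubgroupIn ℚ, ∀ x : (P.freyCurve⁄Qbar).Point,
      σ • x - x ∈ K1sub L := fun σ hσ x => move_of_good L hgood hσ x
  obtain ⟨g₀, σ₀, hD, hχ⟩ := exists_datum L hA hcard hVS1 N hN hbot htop hmove
  refine ⟨K1sub L, g₀, σ₀, hD, ?_, ?_, ?_, ?_⟩
  · convert hχ
  · intro σ hσ f hf
    exact smul_mem_K1sub L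
      (fun τ T => legX_smul (W' := P.freyCurve) τ (map_zero τ) T) hσ hf
  · intro m
    refine exists_exact_order L hA (natCard_frey_pow P) (fun j S hS => ?_) m
    exact Fermat.Agent.S13.CU.Transport.valSum_leg (isLegA P Qbar) (FreyLegInst.two_ne_zero' Qbar)
      (natCast_pow_ne_zero P j) (natCard_frey_pow P j) (valSum_frey_pow P j) S hS
  · intro x hx
    exact mem_K1sub_of_mem L hA hcard hVS1 N hN hbot htop hcof hx

end legs

end Fermat.Agent.S12.V3.FreyK1
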